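import Fermat.Agent.S14.FIIndex
import Fermat.Agent.S14.Sep
import Fermat.Agent.S14.SUnits
import Fermat.Agent.S14.Lambda

set_option autoImplicit false

/-!
# CFT / Global / GN : the number-field core of global class field theory (degree `p` Kummer case)

Language: `Fermat.Agent.S14` (`Pl F`, `ord`, `LocPow`, `IsKummer`, `fiber`, `GenCl`, `IsSUnit`).
`K` is ANY number field containing a primitive `p`-th root of unity `ζ`, `p` odd,
`M = K(B)`, `B ^ p = y`.  No hypothesis on the ramification above `p` (wild ramification allowed).
-/

namespace Fermat.Agent.CFT.Global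

open Fermat.Agent.S14 IsDedekindDomain NumberField

variable {K : Type*} [Field K] [NumberField K]

/-- `v` has exactly one place of `M` above it (`v` is inert or ramified in the degree `p`
extension `M / K`). -/
def NonSplit (M : Type*) [Field M] [NumberField M] [Algebra K M] (v : Pl K) : Prop :=
  (fiber M v).card = 1

/-- An abstract "local norm group" at the places of `S`: a subgroup of `K^×` containing the
elements which are `p`-th powers modulo `v ^ N`, containing the global norms, and proper at the
non-split places. (To be instantiated with the true local norm groups by LOCAL.) -/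
structure LocNormData (p : ℕ) (M : Type*) [Field M] [NumberField M] [Algebra K M]
    (S : Finset (Pl K)) (N : ℕ) (LN : Pl K → K → Prop) : Prop where
  mul : ∀ v ∈ S, ∀ a b : K, a ≠ 0 → b ≠ 0 → LN v a → LN v b → LN v (a * b)
  inv : ∀ v ∈ S, ∀ a : K, a ≠ 0 → LN v a → LN v a⁻¹
  of_locPow : ∀ v ∈ S, ∀ a : K, a ≠ 0 → LocPow p v N a → LN v a
  of_norm : ∀ v ∈ S, ∀ z : M, z ≠ 0 → LN v (Algebra.norm K z)
  exists_not : ∀ v ∈ S, NonSplit M v → ∃ a : K, a ≠ 0 ∧ ¬ LN v a

end Fermat.Agent.CFT.Global
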