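import Fermat.Agent.CFT.Global.GN.SecondIneq

set_option autoImplicit false
set_option linter.unusedSectionVars false

/-!
# GN5 : the Hasse norm theorem for `M = K(y^{1/p})`

Pure counting from GN1 + GN4 (see the board, topic CFT).  Enlarge `S₀` to `S ⊇ S₀ ∪ supp a` with
`GenCl S`, extend `LN` to `S \ S₀` by `NonSplit M v → p ∣ ord v x`, take `T` from `exists_aux`,
`W = U_{S ∪ T}`, `W_N = {u ∈ W : LN v u ∀ v ∈ S}`.  `first_ineq`: `dim W / (W ∩ N M^×) ≤ ns - 1`;
`second_ineq_core` + `exists_not` + weak approximation: `dim W / W_N ≥ ns - 1`; `W ∩ N M^× ⊆ W_N`.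
-/

namespace Fermat.Agent.CFT.Global

open Fermat.Agent.S14 IsDedekindDomain NumberField Module

/-- linear algebra core of the count. -/
theorem exists_indep_in_sub {k Q : Type*} [Field k] [AddCommGroup Q] [Module k Q]
    (W : Submodule k Q) (c : Q) (hc : ∀ q : Q, ∃ t : k, q + t • c ∈ W)
    {ι : Type*} [Fintype ι] (b : ι → Q) (hb : LinearIndependent k b) {m : ℕ}
    (hm : m + 1 = Fintype.card ι) :
    ∃ w : Fin m → Q, LinearIndependent k w ∧ ∀ j, w j ∈ W := by
  classical
  set E : Submodule k Q := Submodule.span k (Set.range b) with hE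
  have hEfin : FiniteDimensional k E := FiniteDimensional.span_of_finite k (Set.finite_range b)
  have hEdim : finrank k E = Fintype.card ι := finrank_span_eq_card hb
  set φ : E →ₗ[k] (Q ⧸ W) := W.mkQ ∘ₗ E.subtype with hφ
  have hrange : LinearMap.range φ ≤ Submodule.span k {W.mkQ c} := by
    rintro _ ⟨x, rfl⟩
    obtain ⟨t, ht⟩ := hc (x : Q)
    rw [Submodule.mem_span_singleton]
    refine ⟨-t, ?_⟩
    have h0 : W.mkQ ((x : Q) + t • c) = 0 := by
      rw [Submodule.mkQ_apply, Submodule.Quotient.mk_eq_zero]; exact ht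
    rw [map_add, map_smul] at h0
    have : φ x = W.mkQ (x : Q) := rfl
    rw [this, neg_smul]
    exact (eq_neg_of_add_eq_zero_left h0).symm
  have hr1 : finrank k (LinearMap.range φ) ≤ 1 :=
    (Submodule.finrank_mono hrange).trans (by
      have h := finrank_span_finset_le_card (R := k) ({W.mkQ c} : Finset (Q ⧸ W))
      rw [Finset.card_singleton, Finset.coe_singleton] at h
      exact h)
  have hrn := LinearMap.finrank_range_add_finrank_ker φ
  have hker : m ≤ finrank k (LinearMap.ker φ) := by omega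
  obtain ⟨f, hf⟩ := exists_linearIndependent_of_le_finrank hker
  refine ⟨fun j => ((f j : E) : Q), ?_, fun j => ?_⟩
  · have h1 : LinearIndependent k (fun j => (f j : E)) :=
      hf.map' (LinearMap.ker φ).subtype (Submodule.ker_subtype _)
    exact h1.map' E.subtype (Submodule.ker_subtype _)
  · have := (f j).2
    rw [LinearMap.mem_ker] at this
    have h2 : W.mkQ (((f j : E) : Q)) = 0 := this
    rwa [Submodule.mkQ_apply, Submodule.Quotient.mk_eq_zero] at h2

variable {p : ℕ} [Fact p.Prime] {K M : Type*} [Field K] [NumberField K] [Field M] [NumberField M]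
  [Algebra K M] {ζ y : K} {B : M} {τ : M ≃ₐ[K] M}

namespace LocNormData

variable {S : Finset (Pl K)} {N : ℕ} {LN : Pl K → K → Prop}

lemma one (h : LocNormData p M S N LN) {v : Pl K} (hv : v ∈ S) : LN v 1 :=
  h.of_locPow v hv 1 one_ne_zero (locPow_one v N)

lemma ppow (h : LocNormData p M S N LN) {v : Pl K} (hv : v ∈ S) {c : K} (hc : c ≠ 0) :
    LN v (c ^ p) :=
  h.of_locPow v hv _ (pow_ne_zero _ hc) (locPow_ppow v N hc)

lemma pow (h : LocNormData p M S N LN) {v : Pl K} (hv : v ∈ S) {a : K} (ha : a ≠ 0)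
    (hL : LN v a) (n : ℕ) : LN v (a ^ n) := by
  induction n with
  | zero => simpa using h.one hv
  | succ n ih => rw [pow_succ]; exact h.mul v hv _ _ (pow_ne_zero _ ha) ha ih hL

lemma zpow (h : LocNormData p M S N LN) {v : Pl K} (hv : v ∈ S) {a : K} (ha : a ≠ 0)
    (hL : LN v a) (n : ℤ) : LN v (a ^ n) := by
  cases n with
  | ofNat n => simpa using h.pow hv ha hL n
  | negSucc n =>
    rw [zpow_negSucc]
    exact h.inv v hv _ (pow_ne_zero _ ha) (h.pow hv ha hL _)

lemma prod (h : LocNormData p M S N LN) {v : Pl K} (hv : v ∈ S) {ι : Type*} (s : Finset ι)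
    (f : ι → K) (hf0 : ∀ i ∈ s, f i ≠ 0) (hf : ∀ i ∈ s, LN v (f i)) : LN v (∏ i ∈ s, f i) := by
  classical
  induction s using Finset.induction_on with
  | empty => simpa using h.one hv
  | insert a s ha ih =>
    rw [Finset.prod_insert ha]
    exact h.mul v hv _ _ (hf0 a (Finset.mem_insert_self a s))
      (Finset.prod_ne_zero_iff.mpr fun i hi => hf0 i (Finset.mem_insert_of_mem hi))
      (hf a (Finset.mem_insert_self a s))
      (ih (fun i hi => hf0 i (Finset.mem_insert_of_mem hi))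
        (fun i hi => hf i (Finset.mem_insert_of_mem hi)))

/-- if `a ^ e` is a local norm with `p ∤ e` then so is `a`. -/
lemma of_zpow (h : LocNormData p M S N LN) {v : Pl K} (hv : v ∈ S) {a : K} (ha : a ≠ 0)
    {e : ℤ} (he : ¬ (p : ℤ) ∣ e) (hL : LN v (a ^ e)) : LN v a := by
  have hpp : p.Prime := Fact.out
  have hcop : IsCoprime e (p : ℤ) :=
    ((Nat.prime_iff_prime_int.1 hpp).coprime_iff_not_dvd.2 he).symm
  obtain ⟨s, t, hst⟩ := hcop
  have e1 : a = (a ^ e) ^ s * ((a ^ t) ^ p) := by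
    rw [← zpow_mul, ← zpow_natCast (a ^ t) p, ← zpow_mul, ← zpow_add₀ ha]
    rw [mul_comm e s, hst, zpow_one]
  rw [e1]
  exact h.mul v hv _ _ (zpow_ne_zero _ (zpow_ne_zero _ ha)) (pow_ne_zero _ (zpow_ne_zero _ ha))
    (h.zpow hv (zpow_ne_zero _ ha) hL s) (h.ppow hv (zpow_ne_zero _ ha))

/-- elements close to `1`. -/
lemma of_close_one (h : LocNormData p M S N LN) {v : Pl K} (hv : v ∈ S) {x : K} (hx : x ≠ 0)
    (hc : v.valuation K (x - 1) ≤ WithZero.exp (-(N : ℤ))) : LN v x :=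
  h.of_locPow v hv x hx ⟨1, one_ne_zero, by simpa using hc⟩

/-- an element which is not a local norm at `v` but a local norm at the other places of `S`. -/
lemma exists_single (h : LocNormData p M S N LN) {v : Pl K} (hv : v ∈ S) (hns : NonSplit M v) :
    ∃ b : K, b ≠ 0 ∧ ¬ LN v b ∧ ∀ v' ∈ S, v' ≠ v → LN v' b := by
  classical
  obtain ⟨a, ha0, ha⟩ := h.exists_not v hv hns
  obtain ⟨x, hx0, hx⟩ := exists_approx S (fun v' => if v' = v then a else 1)
    (fun v' _ => by by_cases h' : v' = v <;> simp [h', ha0]) N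
  refine ⟨x, hx0, fun hL => ha ?_, fun v' hv' hne => ?_⟩
  · have h1 := hx v hv
    rw [if_pos rfl] at h1
    have h2 : LN v (x / a) := h.of_close_one hv (div_ne_zero hx0 ha0) h1
    have e1 : a = x * (x / a)⁻¹ := by field_simp
    rw [e1]
    exact h.mul v hv _ _ hx0 (inv_ne_zero (div_ne_zero hx0 ha0)) hL
      (h.inv v hv _ (div_ne_zero hx0 ha0) h2)
  · have h1 := hx v' hv'
    rw [if_neg hne, div_one] at h1
    exact h.of_close_one hv' hx0 h1

end LocNormData

/-- `x` is the norm of a nonzero element of `M`. -/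
def IsNm (M : Type*) [Field M] [Algebra K M] (x : K) : Prop :=
  ∃ z : M, z ≠ 0 ∧ Algebra.norm K z = x

namespace IsNm

lemma one : IsNm M (1 : K) := ⟨1, one_ne_zero, map_one _⟩

lemma mul {x x' : K} (hx : IsNm M x) (hx' : IsNm M x') : IsNm M (x * x') := by
  obtain ⟨z, hz0, rfl⟩ := hx
  obtain ⟨z', hz0', rfl⟩ := hx'
  exact ⟨z * z', mul_ne_zero hz0 hz0', map_mul _ _ _⟩

lemma inv {x : K} (hx : IsNm M x) : IsNm M x⁻¹ := by
  obtain ⟨z, hz0, rfl⟩ := hx
  refine ⟨z⁻¹, inv_ne_zero hz0, ?_⟩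
  have h1 : Algebra.norm K z * Algebra.norm K z⁻¹ = 1 := by
    rw [← map_mul, mul_inv_cancel₀ hz0, map_one]
  exact eq_inv_of_mul_eq_one_right h1

lemma pow {x : K} (hx : IsNm M x) (n : ℕ) : IsNm M (x ^ n) := by
  induction n with
  | zero => simpa using one
  | succ n ih => rw [pow_succ]; exact ih.mul hx

lemma zpow {x : K} (hx : IsNm M x) (n : ℤ) : IsNm M (x ^ n) := by
  cases n with
  | ofNat n => simpa using hx.pow n
  | negSucc n => rw [zpow_negSucc]; exact (hx.pow _).inv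

lemma prod {ι : Type*} (s : Finset ι) (f : ι → K) (hf : ∀ i ∈ s, IsNm M (f i)) :
    IsNm M (∏ i ∈ s, f i) := by
  classical
  induction s using Finset.induction_on with
  | empty => simpa using one
  | insert a s ha ih =>
    rw [Finset.prod_insert ha]
    exact (hf a (Finset.mem_insert_self a s)).mul (ih fun i hi => hf i (Finset.mem_insert_of_mem hi))

end IsNm

lemma isNm_ppow (h : IsKummer p ζ y B τ) {c : K} (hc : c ≠ 0) : IsNm M (c ^ p) :=
  ⟨algebraMap K M c, (map_ne_zero _).2 hc, h.norm_algebraMap c⟩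

lemma isNm_zpow_of_dvd (h : IsKummer p ζ y B τ) {c : K} (hc : c ≠ 0) {e : ℤ}
    (he : (p : ℤ) ∣ e) : IsNm M (c ^ e) := by
  obtain ⟨k, rfl⟩ := he
  rw [mul_comm, zpow_mul, zpow_natCast]
  exact isNm_ppow h (zpow_ne_zero _ hc)

lemma isNm_of_zpow (h : IsKummer p ζ y B τ) {a : K} (ha : a ≠ 0) {e : ℤ} (he : ¬ (p : ℤ) ∣ e)
    (hN : IsNm M (a ^ e)) : IsNm M a := by
  have hpp : p.Prime := Fact.out
  have hcop : IsCoprime e (p : ℤ) :=
    ((Nat.prime_iff_prime_int.1 hpp).coprime_iff_not_dvd.2 he).symm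
  obtain ⟨s, t, hst⟩ := hcop
  have e1 : a = (a ^ e) ^ s * ((a ^ t) ^ p) := by
    rw [← zpow_mul, ← zpow_natCast (a ^ t) p, ← zpow_mul, ← zpow_add₀ ha]
    rw [mul_comm e s, hst, zpow_one]
  rw [e1]
  exact (hN.zpow s).mul (isNm_ppow h (zpow_ne_zero _ ha))

/-- `M / K` is unramified outside a set containing the places above `p` and the support of `y`. -/
lemma ram_eq_one_of_notMem (h : IsKummer p ζ y B τ) {S : Finset (Pl K)}
    (hSp : ∀ v, Above p v → v ∈ S) (hy : IsSUnit S y) (w : Pl M) (hw : below K w ∉ S) :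
    ram K w = 1 := by
  apply h.ram_eq_one_of_unramAt w
  rw [unramAt_iff_of_not_above h.prim (fun hv => hw (hSp _ hv)) hy.1, hy.2 _ hw]
  exact dvd_zero _

/-- norms at unramified non-split places. -/
lemma dvd_ord_norm_of_nonSplit (h : IsKummer p ζ y B τ) {S : Finset (Pl K)}
    (hSp : ∀ v, Above p v → v ∈ S) (hy : IsSUnit S y) {v : Pl K} (hv : v ∉ S)
    (hns : NonSplit M v) {z : M} (hz : z ≠ 0) : (p : ℤ) ∣ ord v (Algebra.norm K z) := by
  obtain ⟨w, rfl⟩ := exists_below_eq (M := M) v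
  have hw : tauPl K τ w = w := by
    obtain ⟨w₀, hw₀⟩ := Finset.card_eq_one.1 hns
    have h1 : w ∈ fiber M (below K w) := mem_fiber.2 rfl
    have h2 : tauPl K τ w ∈ fiber M (below K w) := mem_fiber.2 (below_tauPl τ w)
    rw [hw₀, Finset.mem_singleton] at h1 h2
    rw [h2, h1]
  have h3 := h.ram_mul_ord_norm hw hz
  rw [ram_eq_one_of_notMem h hSp hy w hv] at h3
  exact ⟨ord w z, by simpa using h3⟩

/-- the core of the Hasse norm theorem: `S` generates the class group and `a` is an `S`-unit. -/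
theorem hasse_norm_core (h : IsKummer p ζ y B τ) (hp : p ≠ 2) (S : Finset (Pl K))
    (hSp : ∀ v, Above p v → v ∈ S) (hy : IsSUnit S y) (hgen : GenCl S) (N : ℕ)
    (LN : Pl K → K → Prop) (hLN : LocNormData p M S N LN) (a : K) (ha : IsSUnit S a)
    (haS : ∀ v ∈ S, LN v a) : IsNm M a := by
  classical
  have hpp : p.Prime := Fact.out
  have hζ := h.prim
  obtain ⟨T, hST, hcard, hTy, hsurj⟩ := exists_aux hp hζ S hSp y hy h.not_isPPow
  obtain ⟨a₀, ha₀, hcore⟩ := second_ineq_core hp hζ S T hSp hgen hST hcard hsurj N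
  -- the subspace of everywhere (on `S`) local norms
  let P : K → Prop := fun x => ∀ v ∈ S, LN v x
  let H : Submodule (ZMod p) (ModP p K) := subspaceOf (p := p) P (fun v hv => hLN.one hv)
    (fun x x' hx hx' hPx hPx' v hv => hLN.mul v hv x x' hx hx' (hPx v hv) (hPx' v hv))
  have memH : ∀ x : K, x ≠ 0 → cls p x ∈ H → P x := by
    intro x hx hmem v hv
    obtain ⟨x', hx'0, hx', hcls⟩ := mem_subspaceOf.1 hmem
    have h1 : cls p (x * x'⁻¹) = 0 := by
      rw [cls_mul hx (inv_ne_zero hx'0), cls_inv, hcls]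
      exact add_neg_cancel (cls p x)
    obtain ⟨c, hc⟩ := (cls_eq_zero_iff (mul_ne_zero hx (inv_ne_zero hx'0))).1 h1
    have hc0 : c ≠ 0 := by
      rintro rfl
      rw [zero_pow hpp.ne_zero] at hc
      exact mul_ne_zero hx (inv_ne_zero hx'0) hc.symm
    have e1 : x = x' * c ^ p := by rw [hc]; field_simp
    rw [e1]
    exact hLN.mul v hv _ _ hx'0 (pow_ne_zero _ hc0) (hx' v hv) (hLN.ppow hv hc0)
  have memH' : ∀ x : K, x ≠ 0 → P x → cls p x ∈ H := fun x hx hPx =>
    mem_subspaceOf.2 ⟨x, hx, hPx, rfl⟩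
  -- the subspace of `S ∪ T`-units
  let W : Submodule (ZMod p) (ModP p K) := subspaceOf (p := p) (fun x => IsSUnit (S ∪ T) x)
    ⟨one_ne_zero, fun v _ => ord_one v⟩
    (fun x x' hx hx' hPx hPx' => ⟨mul_ne_zero hx hx', fun v hv => by
      rw [ord_mul v hx hx', hPx.2 v hv, hPx'.2 v hv]; rfl⟩)
  let Wb : Submodule (ZMod p) (ModP p K ⧸ H) := W.map H.mkQ
  have hc : ∀ q : ModP p K ⧸ H, ∃ t : ZMod p, q + t • H.mkQ (cls p a₀) ∈ Wb := by
    intro q
    obtain ⟨α, rfl⟩ := H.mkQ_surjective q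
    obtain ⟨x, hx0, rfl⟩ := cls_surjective α
    obtain ⟨t, u, hu, hloc⟩ := hcore x hx0
    refine ⟨(t : ZMod p), ?_⟩
    have hne : u * x * a₀ ^ t ≠ 0 := mul_ne_zero (mul_ne_zero hu.1 hx0) (pow_ne_zero _ ha₀)
    have h1 : cls p (u * x * a₀ ^ t) ∈ H :=
      memH' _ hne fun v hv => hLN.of_locPow v hv _ hne (hloc v hv)
    rw [cls_mul (mul_ne_zero hu.1 hx0) (pow_ne_zero _ ha₀), cls_mul hu.1 hx0, cls_pow] at h1
    have h2 : H.mkQ (cls p u + cls p x + (t : ZMod p) • cls p a₀) = 0 := by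
      rw [Submodule.mkQ_apply, Submodule.Quotient.mk_eq_zero]; exact h1
    rw [map_add, map_add, map_smul, add_assoc] at h2
    have h3 : H.mkQ (cls p x) + (t : ZMod p) • H.mkQ (cls p a₀) = - H.mkQ (cls p u) :=
      eq_neg_of_add_eq_zero_right h2
    rw [h3]
    exact Wb.neg_mem (Submodule.mem_map_of_mem (mem_subspaceOf.2 ⟨u, hu.1, hu, rfl⟩))
  -- the non-split places
  let NS : Finset (Pl K) := S.filter (fun v => NonSplit M v)
  have hNS : ∀ i : NS, (i : Pl K) ∈ S ∧ NonSplit M (i : Pl K) := fun i => Finset.mem_filter.1 i.2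
  have hex : ∀ i : NS, ∃ b : K, b ≠ 0 ∧ ¬ LN (i : Pl K) b ∧ ∀ v' ∈ S, v' ≠ (i : Pl K) → LN v' b :=
    fun i => hLN.exists_single (hNS i).1 (hNS i).2
  choose b hb0 hbn hbo using hex
  have hbind : LinearIndependent (ZMod p) (fun i : NS => H.mkQ (cls p (b i))) := by
    rw [Fintype.linearIndependent_iff]
    intro g hg i
    have h1 : H.mkQ (cls p (∏ j, b j ^ ((g j).val : ℤ))) = 0 := by
      rw [cls_prod_zpow b hb0, map_sum, ← hg]
      refine Finset.sum_congr rfl fun j _ => ?_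
      rw [map_smul]
      congr 1
      simp
    rw [Submodule.mkQ_apply, Submodule.Quotient.mk_eq_zero] at h1
    have hne : ∀ s : Finset NS, (∏ j ∈ s, b j ^ ((g j).val : ℤ)) ≠ 0 := fun s =>
      Finset.prod_ne_zero_iff.mpr fun j _ => zpow_ne_zero _ (hb0 j)
    have h2 := memH _ (hne _) h1 (i : Pl K) (hNS i).1
    rw [← Finset.mul_prod_erase Finset.univ _ (Finset.mem_univ i)] at h2
    have h3 : LN (i : Pl K) (∏ j ∈ Finset.univ.erase i, b j ^ ((g j).val : ℤ)) :=
      hLN.prod (hNS i).1 _ _ (fun j _ => zpow_ne_zero _ (hb0 j)) fun j hj =>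
        hLN.zpow (hNS i).1 (hb0 j) (hbo j _ (hNS i).1 (fun he =>
          (Finset.mem_erase.1 hj).1 (Subtype.ext he.symm))) _
    have h4 : LN (i : Pl K) (b i ^ ((g i).val : ℤ)) := by
      have e1 : b i ^ ((g i).val : ℤ) = (b i ^ ((g i).val : ℤ) *
          ∏ j ∈ Finset.univ.erase i, b j ^ ((g j).val : ℤ)) *
          (∏ j ∈ Finset.univ.erase i, b j ^ ((g j).val : ℤ))⁻¹ := by
        rw [mul_assoc, mul_inv_cancel₀ (hne _), mul_one]
      rw [e1]
      exact hLN.mul _ (hNS i).1 _ _ (mul_ne_zero (zpow_ne_zero _ (hb0 i)) (hne _))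
        (inv_ne_zero (hne _)) h2 (hLN.inv _ (hNS i).1 _ (hne _) h3)
    by_contra hgi
    apply hbn i
    refine hLN.of_zpow (hNS i).1 (hb0 i) (fun hd => hgi ?_) h4
    have := (ZMod.intCast_zmod_eq_zero_iff_dvd _ p).mpr hd
    simpa using this
  -- preparation of the first inequality
  have hgen' : GenCl (S ∪ T) := hgen.mono Finset.subset_union_left
  have hunr : ∀ w : Pl M, below K w ∉ S ∪ T → ram K w = 1 := fun w hw =>
    ram_eq_one_of_notMem h hSp hy w fun hS => hw (Finset.mem_union_left _ hS)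
  have hfilter : (S ∪ T).filter (fun v => NonSplit M v) ⊆ NS := by
    intro v hv
    obtain ⟨hvST, hvns⟩ := Finset.mem_filter.1 hv
    rcases Finset.mem_union.1 hvST with hvS | hvT
    · exact Finset.mem_filter.2 ⟨hvS, hvns⟩
    · exfalso
      have hvS : v ∉ S := fun hS => (Finset.disjoint_left.1 hST hS) hvT
      have hsp : SplitAt p ζ y v :=
        (splitAt_iff_of_not_above hζ (fun hv' => hvS (hSp v hv')) y).2 (hTy v hvT)
      have h1 := h.card_fiber_of_splitAt hsp
      rw [hvns] at h1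
      exact hpp.one_lt.ne h1
  have hcardNS : Fintype.card NS = NS.card := Fintype.card_coe NS
  rcases Nat.eq_zero_or_pos NS.card with h0 | hpos
  · -- impossible
    obtain ⟨e, ⟨i, -⟩, -⟩ := first_ineq h hp (S ∪ T) hgen' hunr (n := 0)
      ((Finset.card_le_card hfilter).trans h0.le) Fin.elim0 (fun i => i.elim0) (fun i => i.elim0)
    exact i.elim0
  obtain ⟨m, hm⟩ : ∃ m, m + 1 = NS.card := ⟨NS.card - 1, by omega⟩
  obtain ⟨wb, hwind, hwW⟩ := exists_indep_in_sub Wb (H.mkQ (cls p a₀)) hc _ hbind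
    (hm.trans hcardNS.symm)
  have hex2 : ∀ j, ∃ x : K, IsSUnit (S ∪ T) x ∧ H.mkQ (cls p x) = wb j := by
    intro j
    obtain ⟨ω, hω, hωj⟩ := Submodule.mem_map.1 (hwW j)
    obtain ⟨x, -, hx, rfl⟩ := mem_subspaceOf.1 hω
    exact ⟨x, hx, hωj⟩
  choose w hwU hwb using hex2
  have haU : IsSUnit (S ∪ T) a :=
    ⟨ha.1, fun v hv => ha.2 v fun hS => hv (Finset.mem_union_left _ hS)⟩
  let u : Fin (m + 1) → K := Fin.cons a w
  have huU : ∀ i, IsSUnit (S ∪ T) (u i) := by
    intro i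
    refine Fin.cases ?_ (fun j => ?_) i
    · exact haU
    · exact hwU j
  obtain ⟨e, ⟨i₀, hi₀⟩, z, hz0, hz⟩ := first_ineq h hp (S ∪ T) hgen' hunr (n := m + 1)
    ((Finset.card_le_card hfilter).trans hm.ge) u (fun i => (huU i).1)
    (fun i v hv _ => by rw [(huU i).2 v hv]; exact dvd_zero _)
  -- the relation modulo `H`
  have hNH : cls p (Algebra.norm K z) ∈ H := by
    have hne : Algebra.norm K z ≠ 0 := by
      rw [hz]
      exact Finset.prod_ne_zero_iff.mpr fun i _ => zpow_ne_zero _ (huU i).1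
    exact memH' _ hne fun v hv => hLN.of_norm v hv z hz0
  rw [hz, cls_prod_zpow u (fun i => (huU i).1), Fin.sum_univ_succ] at hNH
  have h5 : H.mkQ ((e 0 : ZMod p) • cls p (u 0) +
      ∑ j : Fin m, (e j.succ : ZMod p) • cls p (u j.succ)) = 0 := by
    rw [Submodule.mkQ_apply, Submodule.Quotient.mk_eq_zero]; exact hNH
  have haH : H.mkQ (cls p a) = 0 := by
    rw [Submodule.mkQ_apply, Submodule.Quotient.mk_eq_zero]; exact memH' a ha.1 haS
  have hu0 : u 0 = a := rfl
  have hus : ∀ j : Fin m, u j.succ = w j := fun j => rfl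
  rw [map_add, map_smul, hu0, haH, smul_zero, zero_add, map_sum] at h5
  have h6 : ∑ j : Fin m, (e j.succ : ZMod p) • wb j = 0 := by
    rw [← h5]
    refine Finset.sum_congr rfl fun j _ => ?_
    rw [map_smul, hus, hwb]
  have h7 := Fintype.linearIndependent_iff.1 hwind _ h6
  have h8 : ∀ j : Fin m, (p : ℤ) ∣ e j.succ := fun j =>
    (ZMod.intCast_zmod_eq_zero_iff_dvd _ p).mp (h7 j)
  have h9 : ¬ (p : ℤ) ∣ e 0 := by
    revert hi₀
    refine Fin.cases ?_ (fun j => ?_) i₀
    · exact id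
    · exact fun hj => absurd (h8 j) hj
  -- conclusion
  apply isNm_of_zpow h ha.1 h9
  have hR : IsNm M (∏ j : Fin m, u j.succ ^ e j.succ) :=
    IsNm.prod _ _ fun j _ => isNm_zpow_of_dvd h (huU j.succ).1 (h8 j)
  have hRne : (∏ j : Fin m, u j.succ ^ e j.succ) ≠ 0 :=
    Finset.prod_ne_zero_iff.mpr fun j _ => zpow_ne_zero _ (huU j.succ).1
  have e2 : a ^ e 0 = Algebra.norm K z * (∏ j : Fin m, u j.succ ^ e j.succ)⁻¹ := by
    rw [hz, Fin.prod_univ_succ, hu0, mul_assoc, mul_inv_cancel₀ hRne, mul_one]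
  rw [e2]
  exact IsNm.mul ⟨z, hz0, rfl⟩ hR.inv

open Classical in
/-- extension of the local norm data to a larger set of places (unramified outside `S₀`). -/
theorem LocNormData.extend (h : IsKummer p ζ y B τ) {S₀ : Finset (Pl K)}
    (hSp : ∀ v, Above p v → v ∈ S₀) (hy : IsSUnit S₀ y) {N : ℕ} {LN : Pl K → K → Prop}
    (hLN : LocNormData p M S₀ N LN) (S : Finset (Pl K)) :
    LocNormData p M S (max N 1)
      (fun v x => if v ∈ S₀ then LN v x else (NonSplit M v → (p : ℤ) ∣ ord v x)) where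
  mul v _ a b ha hb hLa hLb := by
    by_cases hv : v ∈ S₀
    · simp only [hv, if_true] at hLa hLb ⊢
      exact hLN.mul v hv a b ha hb hLa hLb
    · simp only [hv, if_false] at hLa hLb ⊢
      intro hns
      rw [ord_mul v ha hb]
      exact dvd_add (hLa hns) (hLb hns)
  inv v _ a ha hLa := by
    by_cases hv : v ∈ S₀
    · simp only [hv, if_true] at hLa ⊢
      exact hLN.inv v hv a ha hLa
    · simp only [hv, if_false] at hLa ⊢
      intro hns
      rw [ord_inv]
      exact (dvd_neg).2 (hLa hns)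
  of_locPow v _ a ha hloc := by
    by_cases hv : v ∈ S₀
    · simp only [hv, if_true]
      exact hLN.of_locPow v hv a ha (hloc.mono (le_max_left _ _))
    · simp only [hv, if_false]
      intro _
      exact hloc.dvd_ord (le_max_right _ _)
  of_norm v _ z hz := by
    by_cases hv : v ∈ S₀
    · simp only [hv, if_true]
      exact hLN.of_norm v hv z hz
    · simp only [hv, if_false]
      intro hns
      exact dvd_ord_norm_of_nonSplit h hSp hy hv hns hz
  exists_not v _ hns := by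
    by_cases hv : v ∈ S₀
    · simp only [hv, if_true]
      exact hLN.exists_not v hv hns
    · simp only [hv, if_false]
      obtain ⟨x, hx0, hx⟩ := exists_ord_eq ({v} : Finset (Pl K)) (fun _ => 1)
      refine ⟨x, hx0, fun hd => ?_⟩
      have h1 := hd hns
      rw [hx v (Finset.mem_singleton_self v)] at h1
      have hpp : p.Prime := Fact.out
      have h2 := Int.natAbs_dvd_natAbs.2 h1
      simp only [Int.natAbs_natCast, Int.natAbs_one, Nat.dvd_one] at h2
      exact hpp.one_lt.ne' h2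

/-- **GN5** Hasse norm theorem. -/
theorem hasse_norm (h : IsKummer p ζ y B τ) (hp : p ≠ 2) (S₀ : Finset (Pl K))
    (hSp : ∀ v, Above p v → v ∈ S₀) (hy : IsSUnit S₀ y) (N : ℕ) (LN : Pl K → K → Prop)
    (hLN : LocNormData p M S₀ N LN) (a : K) (ha0 : a ≠ 0) (haS : ∀ v ∈ S₀, LN v a)
    (haout : ∀ v, v ∉ S₀ → NonSplit M v → (p : ℤ) ∣ ord v a) :
    ∃ z : M, Algebra.norm K z = a := by
  classical
  obtain ⟨S, hincl, -, hgen, -⟩ := exists_genCl (S₀ ∪ (finite_support_ord ha0).toFinset) ∅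
    (fun _ _ _ => Finset.notMem_empty _)
  have hS₀ : S₀ ⊆ S := Finset.subset_union_left.trans hincl
  have haU : IsSUnit S a := by
    refine ⟨ha0, fun v hv => ?_⟩
    by_contra hne
    exact hv (hincl (Finset.mem_union_right _ ((Set.Finite.mem_toFinset _).2 hne)))
  obtain ⟨z, -, hz⟩ := hasse_norm_core h hp S (fun v hv => hS₀ (hSp v hv))
    ⟨hy.1, fun v hv => hy.2 v fun h' => hv (hS₀ h')⟩ hgen _ _ (hLN.extend h hSp hy S) a haU
    (fun v _ => by
      by_cases hv : v ∈ S₀
      · simp only [hv, if_true]; exact haS v hv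
      · simp only [hv, if_false]; exact haout v hv)
  exact ⟨z, hz⟩

end Fermat.Agent.CFT.Global
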