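import Fermat.Agent.CFT.Global.GN.Defs
import Fermat.Agent.S14.Count.Basis

set_option autoImplicit false

/-!
# GN3 : choice of the auxiliary set of places `T`
-/

namespace Fermat.Agent.CFT.Global

open Fermat.Agent.S14 IsDedekindDomain NumberField

variable {p : ℕ} [Fact p.Prime] {K : Type*} [Field K] [NumberField K]

lemma isSUnit_one (S : Finset (Pl K)) : IsSUnit S (1 : K) := ⟨one_ne_zero, fun v _ => ord_one v⟩

lemma isSUnit_mul {S : Finset (Pl K)} {a b : K} (ha : IsSUnit S a) (hb : IsSUnit S b) :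
    IsSUnit S (a * b) :=
  ⟨mul_ne_zero ha.1 hb.1, fun v hv => by rw [ord_mul v ha.1 hb.1, ha.2 v hv, hb.2 v hv]; rfl⟩

lemma isSUnit_pow {S : Finset (Pl K)} {a : K} (ha : IsSUnit S a) (n : ℕ) : IsSUnit S (a ^ n) :=
  ⟨pow_ne_zero _ ha.1, fun v hv => by rw [ord_pow, ha.2 v hv, mul_zero]⟩

lemma isSUnit_prod {S : Finset (Pl K)} {ι : Type*} (s : Finset ι) (f : ι → K)
    (hf : ∀ i ∈ s, IsSUnit S (f i)) : IsSUnit S (∏ i ∈ s, f i) := by
  classical
  induction s using Finset.induction_on with
  | empty => simpa using isSUnit_one S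
  | insert a s ha ih =>
    rw [Finset.prod_insert ha]
    exact isSUnit_mul (hf a (Finset.mem_insert_self a s))
      (ih fun i hi => hf i (Finset.mem_insert_of_mem hi))

/-- Extension of an `S`-unit which is not a `p`-th power to a basis of `U_S / p`. -/
theorem exists_sunit_basis {ζ : K} (hζ : IsPrimitiveRoot ζ p) (S : Finset (Pl K)) (y : K)
    (hy : IsSUnit S y) (hyp : ¬ IsPPow p y) :
    ∃ u : Fin (Units.rank K + S.card) → K, (∀ j, IsSUnit S (u j)) ∧
      IndepModP p (Fin.append (fun _ : Fin 1 => y) u) := by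
  classical
  obtain ⟨z, hzS, hzind⟩ := exists_sunit_indep (p := p) hζ S
  have hzli := (indepModP_iff z hzind.1).mp hzind
  set B := Submodule.span (ZMod p) (Set.range fun i => cls p (z i)) with hB
  have hBrank : Module.finrank (ZMod p) B = Units.rank K + 1 + S.card := by
    rw [hB, finrank_span_eq_card hzli, Fintype.card_fin]
  have hBmem : ∀ c ∈ B, ∃ u : K, IsSUnit S u ∧ cls p u = c := by
    intro c hc
    have hBle : B ≤ subspaceOf (p := p) (IsSUnit S) (isSUnit_one S)
        (fun a b _ _ ha hb => isSUnit_mul ha hb) := by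
      rw [hB, Submodule.span_le]
      rintro _ ⟨i, rfl⟩
      exact ⟨z i, hzind.1 i, hzS i, rfl⟩
    obtain ⟨u, -, hu, hucls⟩ := hBle hc
    exact ⟨u, hu, hucls⟩
  have hxli : LinearIndependent (ZMod p) (fun _ : Fin 1 => cls p y) := by
    refine (linearIndependent_unique_iff (R := ZMod p) (v := fun _ : Fin 1 => cls p y)).2 ?_
    intro h0
    exact hyp ((cls_eq_zero_iff hy.1).mp h0)
  obtain ⟨c, hcB, hc⟩ := exists_append_linearIndependent B (Units.rank K + S.card) 1 _ hxli
    (by omega)
  choose u hu hucls using fun j => hBmem (c j) (hcB j)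
  refine ⟨u, hu, ?_⟩
  have hne : ∀ i, Fin.append (fun _ : Fin 1 => y) u i ≠ 0 := by
    intro i
    refine Fin.addCases (fun i => ?_) (fun j => ?_) i
    · simpa using hy.1
    · simpa using (hu j).1
  rw [indepModP_iff _ hne, cls_comp_append]
  have : (fun j => cls p (u j)) = c := funext hucls
  rw [this]
  exact hc

/-- **GN3** choice of the auxiliary set `T`, with `SurjOnT` unfolded, and an extra set to avoid. -/
theorem exists_aux_avoid {ζ : K} (hζ : IsPrimitiveRoot ζ p) (S : Finset (Pl K))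
    (y : K) (hy : IsSUnit S y) (hyp : ¬ IsPPow p y) (avoid : Finset (Pl K)) :
    ∃ T : Finset (Pl K), Disjoint S T ∧ Disjoint avoid T ∧ (∀ v ∈ T, ¬ Above p v) ∧
      T.card + 1 = Units.rank K + 1 + S.card ∧
      (∀ v ∈ T, LocPow p v 1 y) ∧
      ∀ c : Pl K → K, (∀ v ∈ T, c v ≠ 0 ∧ ord v (c v) = 0) →
        ∃ u : K, IsSUnit S u ∧ ∀ v ∈ T, LocPow p v 1 (u * c v) := by
  classical
  have hpp : p.Prime := Fact.out
  obtain ⟨u, hu, hxy⟩ := exists_sunit_basis hζ S y hy hyp
  choose w hw1 hw2 hw3 hw4 hw5 using fun j : Fin (Units.rank K + S.card) =>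
    exists_place_sep hζ (Fin.append (fun _ : Fin 1 => y) u) hxy (Fin.natAdd 1 j) (S ∪ avoid)
  have hwx : ∀ j, LocPow p (w j) 1 y := fun j => by
    have := hw4 j (Fin.castAdd _ (0 : Fin 1)) (by
      intro h
      have := congrArg Fin.val h
      simp at this
      omega)
    simpa using this
  have hwy : ∀ j j', j' ≠ j → LocPow p (w j) 1 (u j') := fun j j' hjj' => by
    have := hw4 j (Fin.natAdd 1 j') (by
      intro h
      apply hjj'
      have := congrArg Fin.val h
      simp at this
      exact Fin.ext this)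
    simpa using this
  have hwn : ∀ j, ¬ LocPow p (w j) 1 (u j) := fun j => by simpa using hw5 j
  have hwu : ∀ j j', ord (w j) (u j') = 0 := fun j j' => by simpa using hw3 j (Fin.natAdd 1 j')
  have hinj : Function.Injective w := by
    intro j j' h
    by_contra hne
    apply hwn j
    rw [h]
    exact hwy j' j hne
  refine ⟨Finset.univ.image w, ?_, ?_, ?_, ?_, ?_, ?_⟩
  · rw [Finset.disjoint_right]
    intro v hv
    obtain ⟨j, -, rfl⟩ := Finset.mem_image.mp hv
    exact fun h => hw1 j (Finset.mem_union_left _ h)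
  · rw [Finset.disjoint_right]
    intro v hv
    obtain ⟨j, -, rfl⟩ := Finset.mem_image.mp hv
    exact fun h => hw1 j (Finset.mem_union_right _ h)
  · intro v hv
    obtain ⟨j, -, rfl⟩ := Finset.mem_image.mp hv
    exact hw2 j
  · rw [Finset.card_image_of_injective _ hinj, Finset.card_univ, Fintype.card_fin]; omega
  · intro v hv
    obtain ⟨j, -, rfl⟩ := Finset.mem_image.mp hv
    exact hwx j
  · intro c hc
    have hc' : ∀ j, c (w j) ≠ 0 ∧ ord (w j) (c (w j)) = 0 := fun j =>
      hc (w j) (Finset.mem_image_of_mem w (Finset.mem_univ j))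
    choose a _ ha using fun j => exists_pow_mul_locPow hpp hζ (w j) (hw2 j) (hu j).1 (hwu j j)
      (hwn j) (hc' j).1 (hc' j).2
    refine ⟨∏ j, u j ^ a j, isSUnit_prod _ _ (fun j _ => isSUnit_pow (hu j) _), ?_⟩
    intro v hv
    obtain ⟨j, -, rfl⟩ := Finset.mem_image.mp hv
    rw [← Finset.mul_prod_erase Finset.univ _ (Finset.mem_univ j), mul_right_comm]
    refine (ha j).mul (LocPow.prod _ _ fun j' hj' => (hwy j j' (Finset.ne_of_mem_erase hj')).pow _)

end Fermat.Agent.CFT.Global
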