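import Fermat.Agent.CFT.Global.GN.FirstIneq
import Fermat.Agent.CFT.Global.GN.AuxSet

set_option autoImplicit false

/-!
# GN4a : Chevalley's lemma
-/

namespace Fermat.Agent.CFT.Global

open Fermat.Agent.S14 IsDedekindDomain NumberField

universe u

variable {p : ℕ} [Fact p.Prime] {K : Type u} [Field K] [NumberField K]

/-- if `x ^ e` is a local `p`-th power with `p ∤ e` then so is `x`. -/
lemma locPow_of_zpow {v : Pl K} {x : K} (hx : x ≠ 0) {e : ℤ} (he : ¬ (p : ℤ) ∣ e)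
    (h : LocPow p v 1 (x ^ e)) : LocPow p v 1 x := by
  have hpp : p.Prime := Fact.out
  have hcop : IsCoprime e (p : ℤ) := by
    rw [isCoprime_comm]
    exact (Nat.prime_iff_prime_int.mp hpp).coprime_iff_not_dvd.mpr he
  obtain ⟨a, b, hab⟩ := hcop
  have h1 : x = (x ^ e) ^ a * (x ^ b) ^ p := by
    rw [← zpow_mul, ← zpow_natCast, ← zpow_mul, ← zpow_add₀ hx, mul_comm e a, hab, zpow_one]
  rw [h1]
  exact (h.zpow le_rfl a).mul (locPow_ppow v 1 (zpow_ne_zero _ hx))

/-- the test elements for Chevalley's lemma. -/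
lemma exists_test {ζ : K} (hζ : IsPrimitiveRoot ζ p) (S T : Finset (Pl K))
    (hSp : ∀ v, Above p v → v ∈ S) (hgen : GenCl S) (hST : Disjoint S T)
    (hsurj : ∀ c : Pl K → K, (∀ v ∈ T, c v ≠ 0 ∧ ord v (c v) = 0) →
      ∃ u : K, IsSUnit S u ∧ ∀ v ∈ T, LocPow p v 1 (u * c v))
    (v₀ : Pl K) (hv₀ : v₀ ∈ T) :
    (∃ U : K, U ≠ 0 ∧ (∀ w, w ∉ S → w ≠ v₀ → ord w U = 0) ∧
      (∀ v ∈ T, v ≠ v₀ → LocPow p v 1 U) ∧ ord v₀ U = 1) ∧
    (∃ U : K, U ≠ 0 ∧ (∀ w, w ∉ S → ord w U = 0) ∧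
      (∀ v ∈ T, v ≠ v₀ → LocPow p v 1 U) ∧ ¬ LocPow p v₀ 1 U) := by
  classical
  have hpp : p.Prime := Fact.out
  have hv₀S : v₀ ∉ S := Finset.disjoint_right.mp hST hv₀
  have hv₀p : ¬ Above p v₀ := fun h => hv₀S (hSp _ h)
  constructor
  · obtain ⟨γ, hγ0, hγ1, hγ2⟩ := hgen v₀ hv₀S
    obtain ⟨s, hs, hsT⟩ := hsurj (fun v => if v = v₀ then 1 else γ) (by
      intro v hv
      by_cases h : v = v₀
      · simp [h, ord_one]
      · simp only [h, if_false]
        exact ⟨hγ0, hγ2 v (Finset.disjoint_right.mp hST hv) h⟩)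
    refine ⟨s * γ, mul_ne_zero hs.1 hγ0, ?_, ?_, ?_⟩
    · intro w hw hne
      rw [ord_mul w hs.1 hγ0, hs.2 w hw, hγ2 w hw hne]; rfl
    · intro v hv hne
      have := hsT v hv
      simpa only [hne, if_false] using this
    · rw [ord_mul v₀ hs.1 hγ0, hs.2 v₀ hv₀S, hγ1]; rfl
  · obtain ⟨c, hc0, hc1, hc2⟩ := exists_not_locPow hpp hζ v₀ hv₀p
    obtain ⟨s, hs, hsT⟩ := hsurj (fun v => if v = v₀ then c else 1) (by
      intro v hv
      by_cases h : v = v₀
      · simp only [h, if_true]; exact ⟨hc0, hc1⟩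
      · simp [h, ord_one])
    refine ⟨s, hs.1, hs.2, ?_, ?_⟩
    · intro v hv hne
      have := hsT v hv
      simpa only [hne, if_false, mul_one] using this
    · intro hcon
      have h1 := hsT v₀ hv₀
      simp only [if_true] at h1
      apply hc2
      have h2 : c = s * c / s := by field_simp [hs.1]
      rw [h2]
      exact h1.div le_rfl hcon

/-- **GN4a** Chevalley's lemma (`SurjOnT` unfolded). -/
theorem chevalley_aux (hp : p ≠ 2) {ζ : K} (hζ : IsPrimitiveRoot ζ p) (S T : Finset (Pl K))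
    (hSp : ∀ v, Above p v → v ∈ S) (hgen : GenCl S) (hST : Disjoint S T)
    (hsurj : ∀ c : Pl K → K, (∀ v ∈ T, c v ≠ 0 ∧ ord v (c v) = 0) →
      ∃ u : K, IsSUnit S u ∧ ∀ v ∈ T, LocPow p v 1 (u * c v))
    (a : K) (ha0 : a ≠ 0) (ha : ∀ v, v ∉ S → v ∉ T → ord v a = 0)
    (haS : ∀ v ∈ S, LocPow p v (p * dz ζ v + 1) a) :
    IsPPow p a := by
  classical
  have hpp : p.Prime := Fact.out
  by_contra hnot
  obtain ⟨M, _, _, _, B, τ, h⟩ := exists_isKummer hζ hnot
  -- the test elements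
  choose U1 hU1 using fun v₀ : {v // v ∈ T} =>
    (exists_test hζ S T hSp hgen hST hsurj v₀.1 v₀.2).1
  choose U2 hU2 using fun v₀ : {v // v ∈ T} =>
    (exists_test hζ S T hSp hgen hST hsurj v₀.1 v₀.2).2
  let U : {v // v ∈ T} → K := fun v => if (p : ℤ) ∣ ord v.1 a then U1 v else U2 v
  have hU0 : ∀ v, U v ≠ 0 := by
    intro v
    by_cases hd : (p : ℤ) ∣ ord v.1 a
    · simp only [U, hd, if_true]; exact (hU1 v).1
    · simp only [U, hd, if_false]; exact (hU2 v).1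
  have hUout : ∀ (v : {v // v ∈ T}) (w : Pl K), w ∉ S → w ∉ T → ord w (U v) = 0 := by
    intro v w hwS hwT
    have hne : w ≠ v.1 := fun h => hwT (h ▸ v.2)
    by_cases hd : (p : ℤ) ∣ ord v.1 a
    · simp only [U, hd, if_true]; exact (hU1 v).2.1 w hwS hne
    · simp only [U, hd, if_false]; exact (hU2 v).2.1 w hwS
  have hUT : ∀ (v : {v // v ∈ T}) (w : Pl K), w ∈ T → w ≠ v.1 → LocPow p w 1 (U v) := by
    intro v w hw hne
    by_cases hd : (p : ℤ) ∣ ord v.1 a
    · simp only [U, hd, if_true]; exact (hU1 v).2.2.1 w hw hne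
    · simp only [U, hd, if_false]; exact (hU2 v).2.2.1 w hw hne
  -- the set of nonsplit places
  set NS := (S ∪ T).filter (fun v => NonSplit M v) with hNS
  have hsplitS : ∀ v ∈ S, ¬ NonSplit M v := by
    intro v hv hns
    have h1 : (fiber M v).card = p := h.card_fiber_of_splitAt (haS v hv)
    rw [NonSplit, h1] at hns
    exact hpp.one_lt.ne' hns
  have hNST : ∀ v ∈ NS, v ∈ T := by
    intro v hv
    rw [hNS, Finset.mem_filter, Finset.mem_union] at hv
    rcases hv.1 with h1 | h1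
    · exact absurd hv.2 (hsplitS v h1)
    · exact h1
  let f : Fin NS.card → {v // v ∈ T} := fun i => ⟨(NS.equivFin.symm i).1, hNST _ (NS.equivFin.symm i).2⟩
  have hfinj : Function.Injective f := by
    intro i j hij
    have : (f i).1 = (f j).1 := congrArg Subtype.val hij
    exact NS.equivFin.symm.injective (Subtype.ext this)
  have hfNS : ∀ i, NonSplit M (f i).1 := by
    intro i
    have := (NS.equivFin.symm i).2
    exact (Finset.mem_filter.mp this).2
  have hunr : ∀ w : Pl M, below K w ∉ S ∪ T → ram K w = 1 := by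
    intro w hw
    rw [Finset.mem_union, not_or] at hw
    apply h.ram_eq_one_of_unramAt w
    rw [unramAt_iff_of_not_above hζ (fun hab => hw.1 (hSp _ hab)) ha0, ha _ hw.1 hw.2]
    exact dvd_zero _
  obtain ⟨e, ⟨i₀, hi₀⟩, z, hz0, hz⟩ := first_ineq h hp (S ∪ T)
    (hgen.mono Finset.subset_union_left) hunr (n := NS.card) le_rfl (fun i => U (f i))
    (fun i => hU0 _) (fun i v hv _ => by
      rw [Finset.mem_union, not_or] at hv
      rw [hUout _ v hv.1 hv.2]
      exact dvd_zero _)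
  set v₀ := (f i₀).1 with hv₀
  have hv₀T : v₀ ∈ T := (f i₀).2
  have hv₀S : v₀ ∉ S := Finset.disjoint_right.mp hST hv₀T
  have hv₀p : ¬ Above p v₀ := fun hab => hv₀S (hSp _ hab)
  have hnsplit : ¬ SplitAt p ζ a v₀ := by
    intro hs
    have h1 : (fiber M v₀).card = p := h.card_fiber_of_splitAt hs
    have h2 : (fiber M v₀).card = 1 := hfNS i₀
    rw [h1] at h2
    exact hpp.one_lt.ne' h2
  -- the rest of the product is a local `p`-th power at `v₀`
  set R := ∏ i ∈ Finset.univ.erase i₀, U (f i) ^ e i with hR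
  have hR0 : R ≠ 0 := Finset.prod_ne_zero_iff.mpr fun i _ => zpow_ne_zero _ (hU0 _)
  have hRloc : LocPow p v₀ 1 R := by
    apply LocPow.prod
    intro i hi
    apply LocPow.zpow le_rfl
    apply hUT (f i) v₀ hv₀T
    intro heq
    exact (Finset.ne_of_mem_erase hi) (hfinj (Subtype.ext heq.symm))
  have hprod : Algebra.norm K z = U (f i₀) ^ e i₀ * R := by
    rw [hz, hR, Finset.mul_prod_erase Finset.univ (fun i => U (f i) ^ e i) (Finset.mem_univ i₀)]
  have hUe0 : U (f i₀) ^ e i₀ ≠ 0 := zpow_ne_zero _ (hU0 _)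
  by_cases hd : (p : ℤ) ∣ ord v₀ a
  · -- inert
    have hUv : U (f i₀) = U1 (f i₀) := by simp only [U]; rw [if_pos hd]
    have h1 := h.dvd_ord_norm_of_inert ((unramAt_iff_of_not_above hζ hv₀p ha0).mpr hd) hnsplit hz0
    rw [hprod, ord_mul v₀ hUe0 hR0, ord_zpow, hUv, (hU1 (f i₀)).2.2.2, mul_one] at h1
    exact hi₀ ((Int.dvd_add_left (hRloc.dvd_ord le_rfl)).mp h1)
  · -- ramified
    have hUv : U (f i₀) = U2 (f i₀) := by simp only [U]; rw [if_neg hd]
    obtain ⟨k, hk⟩ := h.exists_locPow_norm_mul_pow hp hd hz0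
    have hord := hk.dvd_ord le_rfl
    have hN0 : Algebra.norm K z ≠ 0 := by rw [hprod]; exact mul_ne_zero hUe0 hR0
    rw [ord_mul v₀ hN0 (pow_ne_zero _ ha0), hprod, ord_mul v₀ hUe0 hR0, ord_zpow, hUv,
      (hU2 (f i₀)).2.1 v₀ hv₀S, mul_zero, zero_add, ord_pow] at hord
    have hk' : (p : ℤ) ∣ (k : ℤ) * ord v₀ a := (Int.dvd_add_right (hRloc.dvd_ord le_rfl)).mp hord
    have hkp : (p : ℤ) ∣ (k : ℤ) :=
      ((Nat.prime_iff_prime_int.mp hpp).dvd_or_dvd hk').resolve_right hd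
    have hak : LocPow p v₀ 1 (a ^ k) := by
      apply locPow_of_isPPow v₀ 1 (pow_ne_zero _ ha0)
      have := isPPow_zpow_of_dvd (p := p) a hkp
      simpa using this
    have h2 : LocPow p v₀ 1 (U (f i₀) ^ e i₀) := by
      have h3 : U (f i₀) ^ e i₀ = Algebra.norm K z * a ^ k / a ^ k / R := by
        rw [hprod]; field_simp
      rw [h3]
      exact (hk.div le_rfl hak).div le_rfl hRloc
    have h4 := locPow_of_zpow (hU0 _) hi₀ h2
    rw [hUv] at h4
    exact (hU2 (f i₀)).2.2.2 h4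

end Fermat.Agent.CFT.Global
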