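import Fermat.Agent.CFT.Global.GN.LocalIndex
import Fermat.Agent.S14.Count.Index

set_option autoImplicit false
set_option linter.unusedSectionVars false
set_option linter.unusedVariables false

/-!
# GN4b : the count in the second inequality

`K^× = ⟨a₀⟩ · U_{S ∪ T} · {local p-th powers at S}`, given Chevalley's lemma (as a hypothesis
`hchev`, so that this file does not depend on `SecondIneq.lean`).
-/

namespace Fermat.Agent.CFT.Global

open Fermat.Agent.S14 IsDedekindDomain NumberField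

section abstract

/-- Linear algebra: if `U ∩ W = 0` and `dim V / W ≤ dim U + 1` then `V = U + W + ⟨a₀⟩`. -/
theorem exists_gen_of_finrank_quot_le {k V : Type*} [Field k] [AddCommGroup V] [Module k V]
    (W U : Submodule k V) [Module.Finite k (V ⧸ W)] [Module.Finite k U] (hd : Disjoint U W)
    (hle : Module.finrank k (V ⧸ W) ≤ Module.finrank k U + 1) :
    ∃ a₀ : V, ∀ a : V, ∃ (c : k) (u : V), u ∈ U ∧ a - c • a₀ - u ∈ W := by
  classical
  set U' : Submodule k (V ⧸ W) := U.map W.mkQ with hU'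
  have hinj : Function.Injective (W.mkQ.domRestrict U) := by
    rw [← LinearMap.ker_eq_bot, LinearMap.ker_eq_bot']
    rintro ⟨x, hx⟩ h
    have h1 : x ∈ W := by
      have : W.mkQ x = 0 := h
      rwa [Submodule.mkQ_apply, Submodule.Quotient.mk_eq_zero] at this
    have h2 : x = 0 := by
      have := (Submodule.disjoint_def.mp hd) x hx h1
      exact this
    exact Subtype.ext h2
  have hrk : Module.finrank k U' = Module.finrank k U := by
    have h1 : U' = LinearMap.range (W.mkQ.domRestrict U) := by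
      rw [hU', LinearMap.range_domRestrict]
    rw [h1]
    exact LinearMap.finrank_range_of_inj hinj
  have h2 := Submodule.finrank_quotient_add_finrank U'
  have h3 : Module.finrank k ((V ⧸ W) ⧸ U') ≤ 1 := by omega
  obtain ⟨g, hg⟩ := finrank_le_one_iff.mp h3
  obtain ⟨g1, rfl⟩ := U'.mkQ_surjective g
  obtain ⟨a₀, rfl⟩ := W.mkQ_surjective g1
  refine ⟨a₀, fun a => ?_⟩
  obtain ⟨c, hc⟩ := hg (U'.mkQ (W.mkQ a))
  have h4 : W.mkQ (a - c • a₀) ∈ U' := by
    rw [← Submodule.Quotient.mk_eq_zero, ← Submodule.mkQ_apply, map_sub, map_sub, map_smul,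
      map_smul, hc, sub_self]
  obtain ⟨u, hu, hu'⟩ := h4
  refine ⟨c, u, hu, ?_⟩
  rw [← Submodule.Quotient.mk_eq_zero, ← Submodule.mkQ_apply, map_sub, hu', sub_self]

end abstract

variable {p : ℕ} [Fact p.Prime] {K : Type*} [Field K] [NumberField K]

open Classical in
/-- uniform index bound at the places of `S` at an arbitrary level. -/
theorem exists_index_bound {ζ : K} (hζ : IsPrimitiveRoot ζ p) (S : Finset (Pl K))
    (hSp : ∀ v, Above p v → v ∈ S) (N : ℕ) :
    ∃ d : Pl K → ℕ, ∑ v ∈ S, d v = 2 * S.card + Module.finrank ℚ K ∧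
      ∀ v ∈ S, ∃ R : Finset K, R.card ≤ p ^ d v ∧ (∀ r ∈ R, r ≠ 0) ∧
        ∀ x : K, x ≠ 0 → ∃ r ∈ R, LocPow p v N (x / r) := by
  obtain ⟨e, f, hef, hsum⟩ := exists_ef_sum (p := p) (S.filter fun v => Above p v)
    (fun v => by
      rw [Finset.mem_filter]
      exact ⟨fun h => h.2, fun h => ⟨hSp v h, h⟩⟩)
  refine ⟨fun v => 2 + if Above p v then e v * f v else 0, ?_, fun v hv => ?_⟩
  · rw [Finset.sum_add_distrib, Finset.sum_const, smul_eq_mul, ← Finset.sum_filter, hsum, mul_comm]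
  · by_cases hav : Above p v
    · simp only [hav, if_true]
      obtain ⟨he, hf⟩ := hef v (Finset.mem_filter.mpr ⟨hv, hav⟩)
      exact wild_index_le hζ v hav (e v) (f v) he hf N
    · simp only [hav, if_false, add_zero]
      obtain ⟨R, h1, h2, h3⟩ := tame_index_le hζ v hav
      refine ⟨R, h1, h2, fun x hx => ?_⟩
      obtain ⟨r, hr, hr'⟩ := h3 x hx
      exact ⟨r, hr, locPow_of_locPow_one v hav hr' N⟩

open Classical in
/-- **GN4b** the count, with Chevalley's lemma as a hypothesis. -/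
theorem second_ineq_core_of_chevalley (hp : p ≠ 2) {ζ : K} (hζ : IsPrimitiveRoot ζ p)
    (S T : Finset (Pl K)) (hSp : ∀ v, Above p v → v ∈ S) (hST : Disjoint S T)
    (hcard : T.card + 1 = Units.rank K + 1 + S.card)
    (hchev : ∀ a : K, IsSUnit (S ∪ T) a → (∀ v ∈ S, LocPow p v (p * dz ζ v + 1) a) → IsPPow p a)
    (N : ℕ) :
    ∃ a₀ : K, a₀ ≠ 0 ∧ ∀ a : K, a ≠ 0 → ∃ (t : ℕ) (u : K), IsSUnit (S ∪ T) u ∧
      ∀ v ∈ S, LocPow p v N (u * a * a₀ ^ t) := by
  have hpp : p.Prime := Fact.out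
  set N' : ℕ := N + 1 + ∑ v ∈ S, (p * dz ζ v + 1) with hN'
  have hN'1 : 1 ≤ N' := by omega
  have hN'N : N ≤ N' := by omega
  have hN'dz : ∀ v ∈ S, p * dz ζ v + 1 ≤ N' := by
    intro v hv
    have := Finset.single_le_sum (f := fun v => p * dz ζ v + 1) (fun _ _ => Nat.zero_le _) hv
    omega
  set W : Submodule (ZMod p) (ModP p K) := subspaceOf (p := p)
    (fun γ : K => ∀ v ∈ S, LocPow p v N' γ)
    (fun v _ => locPow_one v N')
    (fun x y _ _ hx hy => fun v hv => (hx v hv).mul (hy v hv)) with hW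
  have hWmem : ∀ x : K, x ≠ 0 → cls p x ∈ W → ∀ v ∈ S, LocPow p v N' x := by
    rintro x hx0 ⟨x', hx'0, hx', hcls⟩ v hv
    have h1 : IsPPow p (x / x') := isPPow_div_of_cls_eq hx0 hx'0 hcls.symm
    have h2 : x = x' * (x / x') := by field_simp
    have h3 : x / x' ≠ 0 := div_ne_zero hx0 hx'0
    have := (hx' v hv).mul (locPow_of_isPPow v N' h3 h1)
    rwa [← h2] at this
  -- the index bound
  obtain ⟨d, hdsum, hd⟩ := exists_index_bound hζ S hSp N'
  choose R hRcard hR0 hR using fun v : S => hd v.1 v.2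
  choose r hrmem hr using fun (v : S) (a : ModP p K) => hR v (rep a) (rep_ne_zero a)
  let X := ∀ v : S, R v
  let t : ModP p K → X := fun a => fun v => ⟨r v a, hrmem v a⟩
  have ht : ∀ a b, t a = t b → a - b ∈ W := by
    intro a b hab
    have h1 : ∀ v : S, r v a = r v b := fun v =>
      congrArg (fun z : X => ((z v : R v) : K)) hab
    refine ⟨rep a / rep b, div_ne_zero (rep_ne_zero a) (rep_ne_zero b), fun v hv => ?_, ?_⟩
    · have h3 := (hr ⟨v, hv⟩ a).div hN'1 (hr ⟨v, hv⟩ b)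
      rw [h1 ⟨v, hv⟩] at h3
      rwa [div_div_div_cancel_right₀ (hR0 ⟨v, hv⟩ _ (hrmem ⟨v, hv⟩ b))] at h3
    · rw [div_eq_mul_inv, cls_mul (rep_ne_zero a) (inv_ne_zero (rep_ne_zero b)), cls_inv, cls_rep,
        cls_rep]
      exact (sub_eq_add_neg (G := ModP p K) a b).symm
  have hXcard : Fintype.card X ≤ p ^ (2 * S.card + Module.finrank ℚ K) := by
    rw [Fintype.card_pi]
    simp only [Fintype.card_coe]
    calc (∏ v : S, (R v).card) ≤ ∏ v : S, p ^ d v.1 :=
          Finset.prod_le_prod' fun v _ => hRcard v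
      _ = p ^ (2 * S.card + Module.finrank ℚ K) := by
          rw [Finset.prod_pow_eq_pow_sum, ← hdsum, Finset.sum_coe_sort S d]
  obtain ⟨hfin, hrank⟩ := finrank_quot_le_of_map W t ht hXcard
  -- the units
  set U : Submodule (ZMod p) (ModP p K) := SU.space p (S ∪ T) with hU
  have hUfin : Finite U := SU.finite_space hζ (S ∪ T)
  have hUmf : Module.Finite (ZMod p) U := Module.Finite.of_finite
  have hUrank : Module.finrank (ZMod p) U = Units.rank K + 1 + (S.card + T.card) := by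
    rw [hU, SU.finrank_space hζ, Finset.card_union_of_disjoint hST]
  have hdisj : Disjoint U W := by
    rw [Submodule.disjoint_def]
    intro x hxU hxW
    obtain ⟨u, hu, rfl⟩ := SU.mem_space_iff.mp hxU
    rw [cls_eq_zero_iff hu.1]
    exact hchev u hu fun v hv => (hWmem u hu.1 hxW v hv).mono (hN'dz v hv)
  have hn := two_mul_rank_add_one hζ hp
  obtain ⟨α, hα⟩ := exists_gen_of_finrank_quot_le W U hdisj (by omega)
  refine ⟨rep α, rep_ne_zero α, fun a ha => ?_⟩
  obtain ⟨c, x, hxU, hx⟩ := hα (cls p a)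
  obtain ⟨u, hu, rfl⟩ := SU.mem_space_iff.mp hxU
  refine ⟨(-c).val, u⁻¹, ⟨inv_ne_zero hu.1, fun v hv => by rw [ord_inv, hu.2 v hv, neg_zero]⟩,
    fun v hv => ?_⟩
  have h0 : u⁻¹ * a * rep α ^ (-c).val ≠ 0 :=
    mul_ne_zero (mul_ne_zero (inv_ne_zero hu.1) ha) (pow_ne_zero _ (rep_ne_zero α))
  refine (hWmem _ h0 ?_ v hv).mono hN'N
  have h1 : cls p (u⁻¹ * a * rep α ^ (-c).val) = cls p a - c • α - cls p u := by
    rw [cls_mul (mul_ne_zero (inv_ne_zero hu.1) ha) (pow_ne_zero _ (rep_ne_zero α)),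
      cls_mul (inv_ne_zero hu.1) ha, cls_inv, cls_pow, cls_rep, ZMod.natCast_zmod_val, neg_smul]
    abel
  rw [h1]
  exact hx

end Fermat.Agent.CFT.Global
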