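import Fermat.Agent.CFT.Global.GN.Defs

set_option autoImplicit false
set_option linter.deprecated false

/-!
# GN2d : `∑_{v ∣ p} e_v f_v = [F : ℚ]`
-/

namespace Fermat.Agent.CFT.Global.EfSum

open Fermat.Agent.S14 IsDedekindDomain NumberField

variable {p : ℕ} [Fact p.Prime] {F : Type*} [Field F] [NumberField F]

lemma liesOver_of_above {v : Pl F} (hv : Above p v) :
    v.asIdeal.LiesOver (Ideal.span {(p : ℤ)}) := by
  have hmax : (Ideal.span {(p : ℤ)}).IsMaximal := Int.ideal_span_isMaximal_of_prime p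
  rw [Ideal.liesOver_iff]
  refine hmax.eq_of_le ?_ ?_
  · exact (Ideal.IsPrime.under ℤ v.asIdeal).ne_top
  · rw [Ideal.span_singleton_le_iff_mem, Ideal.under_def, Ideal.mem_comap]
    simpa [Above] using hv

lemma above_of_liesOver {v : Pl F} (hv : v.asIdeal.LiesOver (Ideal.span {(p : ℤ)})) :
    Above p v := by
  have h1 : (p : ℤ) ∈ Ideal.under ℤ v.asIdeal := by
    rw [← (Ideal.liesOver_iff _ _).mp hv]
    exact Ideal.mem_span_singleton_self _
  rw [Ideal.under_def, Ideal.mem_comap] at h1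
  simpa [Above] using h1

lemma ord_p_eq_multiplicity (v : Pl F) :
    ord v (p : F) = multiplicity v.asIdeal (Ideal.span {(p : 𝓞 F)}) := by
  have hp : p.Prime := Fact.out
  have hp0 : (p : 𝓞 F) ≠ 0 := by exact_mod_cast hp.ne_zero
  have h1 : (p : F) = algebraMap (𝓞 F) F (p : 𝓞 F) := by simp
  rw [ord, h1, HeightOneSpectrum.valuation_of_algebraMap,
    HeightOneSpectrum.intValuation_eq_exp_neg_multiplicity v hp0, WithZero.log_exp, neg_neg]

/-- **GN2d** `∑_{v ∣ p} e_v f_v = [F : ℚ]`, in the form needed for the count. -/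
theorem exists_ef_sum (Sp : Finset (Pl F)) (hSp : ∀ v, v ∈ Sp ↔ Above p v) :
    ∃ e f : Pl F → ℕ, (∀ v ∈ Sp, ord v (p : F) = e v ∧ Ideal.absNorm v.asIdeal = p ^ f v) ∧
      ∑ v ∈ Sp, e v * f v = Module.finrank ℚ F := by
  classical
  have hp : p.Prime := Fact.out
  have hp0 : (p : 𝓞 F) ≠ 0 := by exact_mod_cast hp.ne_zero
  have hmax : (Ideal.span {(p : ℤ)}).IsMaximal := Int.ideal_span_isMaximal_of_prime p
  have hP0 : Ideal.span {(p : ℤ)} ≠ ⊥ := by
    rw [Ne, Ideal.span_singleton_eq_bot]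
    exact_mod_cast hp.ne_zero
  have hmap : (Ideal.span {(p : ℤ)}).map (algebraMap ℤ (𝓞 F)) = Ideal.span {(p : 𝓞 F)} := by
    rw [Ideal.map_span, Set.image_singleton]
    simp
  have hmap0 : (Ideal.span {(p : ℤ)}).map (algebraMap ℤ (𝓞 F)) ≠ ⊥ := by
    rw [hmap, Ne, Ideal.span_singleton_eq_bot]
    exact hp0
  refine ⟨fun v => (Ideal.span {(p : ℤ)}).ramificationIdx' v.asIdeal,
    fun v => (Ideal.span {(p : ℤ)}).inertiaDeg' v.asIdeal, ?_, ?_⟩
  · intro v hv
    have hlo := liesOver_of_above ((hSp v).mp hv)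
    refine ⟨?_, Ideal.absNorm_eq_pow_inertiaDeg' v.asIdeal hp⟩
    show ord v (p : F) = ((Ideal.span {(p : ℤ)}).ramificationIdx' v.asIdeal : ℤ)
    rw [ord_p_eq_multiplicity,
      Ideal.IsDedekindDomain.ramificationIdx'_eq_multiplicity hmap0 v.isPrime, hmap]
  · rw [← Ideal.sum_ramification_inertia (𝓞 F) ℚ F hP0]
    refine Finset.sum_bij (fun v _ => v.asIdeal) ?_ ?_ ?_ ?_
    · intro v hv
      rw [IsDedekindDomain.mem_primesOverFinset_iff hP0]
      exact ⟨v.isPrime, liesOver_of_above ((hSp v).mp hv)⟩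
    · intro v _ w _ h
      exact HeightOneSpectrum.ext h
    · intro P hP
      rw [IsDedekindDomain.mem_primesOverFinset_iff hP0] at hP
      obtain ⟨hP1, hP2⟩ := hP
      have hPbot : P ≠ ⊥ := by
        rintro rfl
        have h1 := (Ideal.liesOver_iff _ _).mp hP2
        apply hP0
        rw [h1, Ideal.under_def, Ideal.comap_bot_of_injective]
        exact (algebraMap ℤ (𝓞 F)).injective_int
      refine ⟨⟨P, hP1, hPbot⟩, ?_, rfl⟩
      exact (hSp _).mpr (above_of_liesOver hP2)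
    · intro v _
      rfl

end Fermat.Agent.CFT.Global.EfSum
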