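import Fermat.Agent.CFT.Global.GN.Defs

set_option autoImplicit false

/-!
# GN1 : the first inequality, general form (wild ramification allowed inside `S`)

Same proof as `S14.IsKummer.exists_norm_eq_prod'` (files S14/FIRank, FIH1, FIUnits, FIIndex), with
"split" defined by the number of places above (`fiber`), and `ram = 1` outside `S` as hypothesis.
-/

namespace Fermat.Agent.CFT.Global

open Fermat.Agent.S14 IsDedekindDomain NumberField Module

variable {p : ℕ} [Fact p.Prime] {K M : Type*} [Field K] [NumberField K] [Field M] [NumberField M]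
  [Algebra K M] {ζ y : K} {B : M} {τ : M ≃ₐ[K] M}

/-- every fibre has `1` or `p` elements. -/
theorem card_fiber_eq_one_or (h : IsKummer p ζ y B τ) (v : Pl K) :
    (fiber M v).card = 1 ∨ (fiber M v).card = p := by
  obtain ⟨w, rfl⟩ := exists_below_eq (M := M) v
  have hdvd : (fiber M (below K w)).card ∣ p := Dvd.intro _ (h.card_fiber_mul w)
  exact (Nat.dvd_prime Fact.out).1 hdvd

open Classical in
/-- `#S_M = p #split + #nonsplit`. -/
lemma card_fiberSet_eq_nonSplit (h : IsKummer p ζ y B τ) (S : Finset (Pl K)) :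
    (fiberSet M S).card = p * (S.filter (fun v => ¬ NonSplit M v)).card +
      (S.filter (fun v => NonSplit M v)).card := by
  rw [card_fiberSet, ← Finset.sum_filter_not_add_sum_filter S (fun v => NonSplit M v)]
  congr 1
  · have e1 : ∀ v ∈ S.filter (fun v => ¬ NonSplit M v), (fiber M v).card = p := fun v hv =>
      (card_fiber_eq_one_or h v).resolve_left (Finset.mem_filter.1 hv).2
    rw [Finset.sum_congr rfl e1, Finset.sum_const, smul_eq_mul, mul_comm]
  · have e1 : ∀ v ∈ S.filter (fun v => NonSplit M v), (fiber M v).card = 1 := fun v hv =>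
      (Finset.mem_filter.1 hv).2
    rw [Finset.sum_congr rfl e1, Finset.sum_const, smul_eq_mul, mul_one]

open Classical in
/-- The rank equation `rank U_{M,S} = rank U_{K,S} + (p - 1) (r_K + 1 + #split)`. -/
lemma finrank_SUn_fiberSet_nonSplit (h : IsKummer p ζ y B τ) (hp : p ≠ 2) (S : Finset (Pl K)) :
    finrank ℤ (Additive (SUn (fiberSet M S))) =
      finrank ℤ (Additive (HQ.divHom (tauSU τ S)).ker) +
        (p - 1) * (Units.rank K + 1 + (S.filter (fun v => ¬ NonSplit M v)).card) := by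
  rw [finrank_SUn, h.finrank_fixed, card_fiberSet_eq_nonSplit h]
  have h1 := h.rank_add_one hp
  have h2 : S.card = (S.filter (fun v => NonSplit M v)).card +
      (S.filter (fun v => ¬ NonSplit M v)).card :=
    (Finset.card_filter_add_card_filter_not _).symm
  obtain ⟨q, rfl⟩ : ∃ q, p = q + 1 := ⟨p - 1, by have := (Fact.out : p.Prime).pos; omega⟩
  rw [h2, Nat.add_sub_cancel]
  have h3 : Units.rank M = (q + 1) * (Units.rank K + 1) - 1 := by omega
  have h4 : (q + 1) * (Units.rank K + 1) = q * (Units.rank K + 1) + Units.rank K + 1 := by ring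
  rw [h3, h4, Nat.add_sub_cancel]
  ring

open Classical in
/-- **GN1** for `S`-units. -/
theorem first_ineq_sunit (h : IsKummer p ζ y B τ) (hp : p ≠ 2) (S : Finset (Pl K))
    (hgen : GenCl S) (hunr : ∀ w : Pl M, below K w ∉ S → ram K w = 1) {n : ℕ}
    (hn : (S.filter (fun v => NonSplit M v)).card ≤ n) (u : Fin n → K)
    (hu : ∀ i, IsSUnit S (u i)) :
    ∃ e : Fin n → ℤ, (∃ i, ¬ (p : ℤ) ∣ e i) ∧
      ∃ z : M, z ≠ 0 ∧ Algebra.norm K z = ∏ i, u i ^ e i := by
  have : Group.FG (SUn (fiberSet M S)) := SUn_fg _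
  have hinj : Function.Injective (algebraMap K M) := (algebraMap K M).injective
  have hcard : (S.filter (fun v => NonSplit M v)).card +
      (S.filter (fun v => ¬ NonSplit M v)).card = S.card :=
    Finset.card_filter_add_card_filter_not _
  let φ : SUn (fiberSet M S) →* M := (Units.coeHom M).comp (SUn (fiberSet M S)).subtype
  have hφ : ∀ x : SUn (fiberSet M S), φ x = ((x : Mˣ) : M) := fun _ => rfl
  let x : Fin n → SUn (fiberSet M S) := fun i =>
    inclSU M S ⟨Units.mk0 (u i) (hu i).1, mem_SUn_iff_isSUnit.2 (hu i)⟩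
  have hxφ : ∀ i, φ (x i) = algebraMap K M (u i) := fun i => by
    rw [hφ, coe_inclSU]; rfl
  obtain ⟨e, he, z, hz⟩ := HQ.exists_relation (Fact.out : p.Prime) (tauSU τ S)
    (h.tauSU_iterate_p S) (Units.rank K + 1 + (S.filter (fun v => ¬ NonSplit M v)).card) n
    (finrank_SUn_fiberSet_nonSplit h hp S)
    (by rw [h.finrank_fixed S]; omega)
    (by
      intro a ha
      have hN : Algebra.norm K ((a : Mˣ) : M) = 1 := by
        apply hinj
        rw [← h.coe_normHom_tauSU S a, ha, map_one]; rfl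
      obtain ⟨ε, hε, hae⟩ :=
        h.exists_sunit_of_norm_eq_one S hgen hunr (mem_SUn_iff_isSUnit.1 a.2) hN
      refine ⟨⟨Units.mk0 ε hε.1, mem_SUn_iff_isSUnit.2 hε⟩, ?_⟩
      apply Subtype.ext
      apply Units.ext
      rw [hae]
      simp [Units.val_div_eq_div_val])
    x
    (by
      intro i
      apply Subtype.ext
      apply Units.ext
      rw [coe_tauSU, ← hφ, hxφ, AlgEquiv.commutes])
  refine ⟨e, he, ((z : Mˣ) : M), (z : Mˣ).ne_zero, ?_⟩
  apply hinj
  rw [← h.coe_normHom_tauSU S z, hz, ← hφ, map_prod, map_prod]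
  refine Finset.prod_congr rfl fun i _ => ?_
  rw [map_zpow, hxφ, map_zpow₀]

open Classical in
/-- **GN1** `[U_S(K) : U_S(K) ∩ N M^×] ≤ p ^ (#nonsplit(S) - 1)`, relation form. -/
theorem first_ineq (h : IsKummer p ζ y B τ) (hp : p ≠ 2) (S : Finset (Pl K)) (hgen : GenCl S)
    (hunr : ∀ w : Pl M, below K w ∉ S → ram K w = 1) {n : ℕ}
    (hn : (S.filter (fun v => NonSplit M v)).card ≤ n) (u : Fin n → K) (hu0 : ∀ i, u i ≠ 0)
    (hu : ∀ i v, v ∉ S → NonSplit M v → (p : ℤ) ∣ ord v (u i)) :
    ∃ e : Fin n → ℤ, (∃ i, ¬ (p : ℤ) ∣ e i) ∧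
      ∃ z : M, z ≠ 0 ∧ Algebra.norm K z = ∏ i, u i ^ e i := by
  have hp0 : (p : ℤ) ≠ 0 := Nat.cast_ne_zero.2 (Fact.out : p.Prime).ne_zero
  -- supports
  let sp : Fin n → Finset (Pl K) := fun i => (finite_support_ord (hu0 i)).toFinset
  have hsp : ∀ i v, v ∈ sp i ↔ ord v (u i) ≠ 0 := fun i v => by
    simp [sp, Function.mem_support]
  let S' : Finset (Pl K) :=
    S ∪ (Finset.univ.biUnion sp).filter (fun v => ¬ NonSplit M v)
  have hSS' : S ⊆ S' := Finset.subset_union_left
  have hfil : S'.filter (fun v => NonSplit M v) = S.filter (fun v => NonSplit M v) := by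
    ext v
    simp only [S', Finset.mem_filter, Finset.mem_union]
    tauto
  have hgen' : GenCl S' := hgen.mono hSS'
  -- the correcting elements
  have hc : ∀ i, ∃ c : K, c ≠ 0 ∧ ∀ v, v ∉ S' → ord v (u i) = p * ord v c := by
    intro i
    obtain ⟨c, hc0, h1, h2⟩ := hgen'.exists_ord_eq (sp i) (fun v => ord v (u i) / p)
    refine ⟨c, hc0, fun v hv => ?_⟩
    by_cases hvs : v ∈ sp i
    · rw [h1 v hvs hv]
      have hvS : v ∉ S := fun h' => hv (hSS' h')
      have hns : NonSplit M v := by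
        by_contra hs
        apply hv
        simp only [S', Finset.mem_union, Finset.mem_filter, Finset.mem_biUnion, Finset.mem_univ,
          true_and]
        exact Or.inr ⟨⟨i, hvs⟩, hs⟩
      exact (Int.mul_ediv_cancel' (hu i v hvS hns)).symm
    · rw [h2 v hv hvs, mul_zero]
      by_contra h0
      exact hvs ((hsp i v).2 h0)
  choose c hc0 hc using hc
  have hu' : ∀ i, IsSUnit S' (u i / c i ^ p) := by
    intro i
    refine ⟨div_ne_zero (hu0 i) (pow_ne_zero _ (hc0 i)), fun v hv => ?_⟩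
    rw [ord_div v (hu0 i) (pow_ne_zero _ (hc0 i)), ord_pow, hc i v hv, sub_self]
  obtain ⟨e, he, z, hz0, hz⟩ := first_ineq_sunit h hp S' hgen'
    (fun w hw => hunr w fun h' => hw (hSS' h')) (by rw [hfil]; exact hn)
    (fun i => u i / c i ^ p) hu'
  have hC : (∏ i, c i ^ e i) ≠ 0 := Finset.prod_ne_zero_iff.2 fun i _ => zpow_ne_zero _ (hc0 i)
  refine ⟨e, he, z * algebraMap K M (∏ i, c i ^ e i),
    mul_ne_zero hz0 ((map_ne_zero (algebraMap K M)).2 hC), ?_⟩
  rw [map_mul, hz, Algebra.norm_algebraMap, h.finrank_eq, ← Finset.prod_pow,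
    ← Finset.prod_mul_distrib]
  refine Finset.prod_congr rfl fun i _ => ?_
  rw [div_zpow, ← zpow_natCast (c i ^ e i) p, ← zpow_natCast (c i) p, ← zpow_mul, ← zpow_mul,
    mul_comm (e i) (p : ℤ)]
  exact div_mul_cancel₀ _ (zpow_ne_zero _ (hc0 i))

end Fermat.Agent.CFT.Global
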