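import Fermat.Agent.CFT.Global.GN.Defs

set_option autoImplicit false

/-!
# GN2b, GN2c : the Hensel bootstrap for `LocPow`

Newton step inside the number field: `x = c ^ p (1 + ε)`, replace `c` by `c (1 + ε / p)`.
-/

namespace Fermat.Agent.CFT.Global.Hensel

open Fermat.Agent.S14 IsDedekindDomain NumberField

/-- `(1 + η) ^ p = 1 + p η + p η² r + η ^ p`. -/
lemma exists_one_add_pow_prime {R : Type*} [CommRing R] {p : ℕ} (hp : p.Prime) (η : R) :
    ∃ r, (1 + η) ^ p = 1 + p * η + p * η ^ 2 * r + η ^ p := by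
  have h := add_pow_prime_eq hp η 1
  have hI : Finset.Ioo 0 p = insert 1 (Finset.Ioo 1 p) := by
    ext k
    simp only [Finset.mem_Ioo, Finset.mem_insert]
    have := hp.two_le
    omega
  rw [hI, Finset.sum_insert (by simp)] at h
  have h2 : ∑ k ∈ Finset.Ioo 1 p, η ^ (k - 1) * 1 ^ (p - k - 1) * ((p.choose k / p : ℕ) : R) =
      η * ∑ k ∈ Finset.Ioo 1 p, η ^ (k - 2) * ((p.choose k / p : ℕ) : R) := by
    rw [Finset.mul_sum]
    refine Finset.sum_congr rfl fun k hk => ?_
    obtain ⟨hk1, hk2⟩ := Finset.mem_Ioo.mp hk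
    obtain ⟨j, rfl⟩ : ∃ j, k = j + 2 := ⟨k - 2, by omega⟩
    have e1 : j + 2 - 1 = j + 1 := by omega
    have e2 : j + 2 - 2 = j := by omega
    rw [e1, e2, one_pow, pow_succ]
    ring
  refine ⟨∑ k ∈ Finset.Ioo 1 p, η ^ (k - 2) * ((p.choose k / p : ℕ) : R), ?_⟩
  rw [add_comm 1 η, h, h2, Nat.choose_one_right, Nat.div_self hp.pos]
  simp only [Nat.sub_self, pow_zero, one_pow, Nat.cast_one, mul_one]
  ring

variable {p : ℕ} [Fact p.Prime] {F : Type*} [Field F] [NumberField F]

/-- The Newton step. -/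
lemma locPow_succ (v : Pl F) (e m : ℕ)
    (he : v.valuation F (p : F) = WithZero.exp (-(e : ℤ))) (hm : e + 1 ≤ (p - 1) * m) {x : F}
    (hx : LocPow p v (e + m) x) : LocPow p v (e + m + 1) x := by
  have hp : p.Prime := Fact.out
  obtain ⟨c, hc, hε⟩ := hx
  set w := v.valuation F with hw
  set ε := x / c ^ p - 1 with hεdef
  have hp0 : (p : F) ≠ 0 := by exact_mod_cast hp.ne_zero
  have hm1 : 1 ≤ m := by
    rcases Nat.eq_zero_or_pos m with h | h
    · subst h; simp at hm
    · exact h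
  set η := ε / p with hηdef
  have hpη : (p : F) * η = ε := by rw [hηdef]; field_simp
  have hwη : w η ≤ WithZero.exp (-(m : ℤ)) := by
    have h1 : w ε = w (p : F) * w η := by rw [← map_mul, hpη]
    rw [h1, he] at hε
    have h2 : WithZero.exp (-((e + m : ℕ) : ℤ)) =
        WithZero.exp (-(e : ℤ)) * WithZero.exp (-(m : ℤ)) := by
      rw [← WithZero.exp_add]; congr 1; push_cast; ring
    rw [h2] at hε
    exact (mul_le_mul_iff_right₀ (zero_lt_iff.mpr WithZero.exp_ne_zero)).mp hε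
  have hwη1 : w η < 1 := lt_of_le_of_lt hwη (exp_neg_natCast_lt_one hm1)
  have hw1η : w (1 + η) = 1 := Valuation.map_one_add_of_lt w hwη1
  have h1η : 1 + η ≠ 0 := by
    intro h
    rw [h, map_zero] at hw1η
    exact zero_ne_one hw1η
  -- the binomial expansion with integral remainder
  obtain ⟨r, hr⟩ := exists_one_add_pow_prime hp
    (⟨η, (Valuation.mem_valuationSubring_iff w η).mpr hwη1.le⟩ : w.valuationSubring)
  have hr' : (1 + η) ^ p = 1 + p * η + p * η ^ 2 * (r : F) + η ^ p := by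
    have := congrArg (Subtype.val) hr
    simpa using this
  have hwr : w (r : F) ≤ 1 := (Valuation.mem_valuationSubring_iff w _).mp r.2
  refine ⟨c * (1 + η), mul_ne_zero hc h1η, ?_⟩
  have hx1 : x / c ^ p = 1 + ε := by rw [hεdef]; ring
  have key : x / (c * (1 + η)) ^ p - 1 = -(p * η ^ 2 * (r : F) + η ^ p) / (1 + η) ^ p := by
    rw [mul_pow, ← div_div, hx1, eq_div_iff (pow_ne_zero _ h1η), sub_mul,
      div_mul_cancel₀ _ (pow_ne_zero _ h1η), one_mul, hr', hpη]
    ring
  rw [key, map_div₀, map_pow, hw1η, one_pow, div_one, Valuation.map_neg]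
  refine le_trans (Valuation.map_add _ _ _) (max_le ?_ ?_)
  · rw [map_mul, map_mul, map_pow, he]
    calc WithZero.exp (-(e : ℤ)) * w η ^ 2 * w (r : F)
        ≤ WithZero.exp (-(e : ℤ)) * WithZero.exp (-(m : ℤ)) ^ 2 * 1 := by
          gcongr
      _ = WithZero.exp (-(e : ℤ) + (2 : ℕ) • (-(m : ℤ))) := by
          rw [mul_one, WithZero.exp_add, WithZero.exp_nsmul]
      _ ≤ WithZero.exp (-((e + m + 1 : ℕ) : ℤ)) := by
          rw [WithZero.exp_le_exp]
          push_cast
          simp only [nsmul_eq_mul]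
          push_cast
          omega
  · rw [map_pow]
    calc w η ^ p ≤ WithZero.exp (-(m : ℤ)) ^ p := by gcongr
      _ = WithZero.exp (p • (-(m : ℤ))) := by rw [WithZero.exp_nsmul]
      _ ≤ WithZero.exp (-((e + m + 1 : ℕ) : ℤ)) := by
          rw [WithZero.exp_le_exp]
          simp only [nsmul_eq_mul]
          have h3 : ((e + 1 : ℕ) : ℤ) ≤ (((p - 1) * m : ℕ) : ℤ) := by exact_mod_cast hm
          rw [Nat.cast_mul, Nat.cast_sub hp.one_le] at h3
          push_cast at h3 ⊢
          nlinarith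

/-- Iterating the Newton step. -/
lemma locPow_of_le (v : Pl F) (e m : ℕ)
    (he : v.valuation F (p : F) = WithZero.exp (-(e : ℤ))) (hm : e + 1 ≤ (p - 1) * m) {x : F}
    (hx : LocPow p v (e + m) x) (N : ℕ) : LocPow p v N x := by
  have key : ∀ k : ℕ, LocPow p v (e + (m + k)) x := by
    intro k
    induction k with
    | zero => exact hx
    | succ k ih =>
      have := locPow_succ v e (m + k) he
        (le_trans hm (Nat.mul_le_mul_left _ (Nat.le_add_right m k))) ih
      exact this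
  exact LocPow.mono (by omega) (key N)

/-- `ord_v p = (p - 1) ord_v (ζ - 1)`. -/
lemma ord_p_eq {ζ : F} (hζ : IsPrimitiveRoot ζ p) (v : Pl F) :
    ord v (p : F) = ((p - 1 : ℕ) : ℤ) * ord v (ζ - 1) := by
  have hp : p.Prime := Fact.out
  obtain ⟨n, hn⟩ : ∃ n, p = n + 1 := ⟨p - 1, by have := hp.one_le; omega⟩
  have hζ' : IsPrimitiveRoot ζ (n + 1) := hn ▸ hζ
  have h1 := hζ'.prod_one_sub_pow_eq_order
  have hne : ∀ k ∈ Finset.range n, ¬ 0 ≡ k + 1 [MOD p] := by
    intro k hk h
    have hk' := Finset.mem_range.mp hk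
    have := (Nat.modEq_zero_iff_dvd.mp h.symm)
    exact absurd (Nat.le_of_dvd (Nat.succ_pos k) this) (by omega)
  have hord : ∀ k ∈ Finset.range n, ord v (1 - ζ ^ (k + 1)) = ord v (ζ - 1) := by
    intro k hk
    have := ord_zeta_pow_sub_zeta_pow hζ v (hne k hk)
    rwa [pow_zero] at this
  have hnz : ∀ k ∈ Finset.range n, 1 - ζ ^ (k + 1) ≠ 0 := by
    intro k hk h
    have hk' := Finset.mem_range.mp hk
    have h2 : ζ ^ (k + 1) = 1 := (sub_eq_zero.mp h).symm
    exact hζ.pow_ne_one_of_pos_of_lt (Nat.succ_ne_zero k) (by omega) h2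
  have h2 : (p : F) = ∏ k ∈ Finset.range n, (1 - ζ ^ (k + 1)) := by
    rw [h1, hn]; push_cast; rfl
  rw [h2, ord_prod v _ _ hnz, Finset.sum_congr rfl hord, Finset.sum_const, Finset.card_range,
    nsmul_eq_mul, hn, Nat.add_sub_cancel]

lemma valuation_p_eq (v : Pl F) :
    v.valuation F (p : F) = WithZero.exp (-(((ord v (p : F)).toNat : ℕ) : ℤ)) := by
  have hp : p.Prime := Fact.out
  have hp0 : (p : F) ≠ 0 := by exact_mod_cast hp.ne_zero
  have h0 : 0 ≤ ord v (p : F) := by
    have := ord_nonneg_of_integer v (p : 𝓞 F)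
    simpa using this
  rw [valuation_eq_exp_neg_ord v hp0, Int.toNat_of_nonneg h0]

/-- **GN2b** tame places: `LocPow` at level `1` implies `LocPow` at every level (Hensel). -/
theorem locPow_of_locPow_one (v : Pl F) (hv : ¬ Above p v) {x : F} (hx : LocPow p v 1 x) (N : ℕ) :
    LocPow p v N x := by
  have hp : p.Prime := Fact.out
  have hp0 : (p : 𝓞 F) ≠ 0 := by exact_mod_cast hp.ne_zero
  have h0 : ord v (p : F) = 0 := by
    have := Approx.ord_eq_zero_of_notMem v (a := (p : 𝓞 F)) hv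
    simpa using this
  have he := valuation_p_eq (p := p) v
  rw [h0] at he
  refine locPow_of_le v 0 1 he ?_ (by simpa using hx) N
  have := hp.two_le
  omega

/-- **GN2c** wild places: `LocPow` at level `p d + 1`, `d = ord_v (ζ - 1)`, implies `LocPow` at
every level (Hensel). -/
theorem locPow_of_locPow_dz {ζ : F} (hζ : IsPrimitiveRoot ζ p) (v : Pl F) {x : F}
    (hx : LocPow p v (p * dz ζ v + 1) x) (N : ℕ) : LocPow p v N x := by
  have hp : p.Prime := Fact.out
  have he := valuation_p_eq (p := p) v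
  have h1 : (ord v (p : F)).toNat = (p - 1) * dz ζ v := by
    rw [ord_p_eq hζ v, ← dz_eq hζ v, ← Nat.cast_mul, Int.toNat_natCast]
  rw [h1] at he
  have h2 : p * dz ζ v + 1 = (p - 1) * dz ζ v + (dz ζ v + 1) := by
    obtain ⟨n, hn⟩ : ∃ n, p = n + 1 := ⟨p - 1, by have := hp.one_le; omega⟩
    rw [hn, Nat.add_sub_cancel]
    ring
  rw [h2] at hx
  refine locPow_of_le v _ _ he ?_ hx N
  have := hp.two_le
  rw [Nat.mul_add, Nat.mul_one]
  omega

end Fermat.Agent.CFT.Global.Hensel
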