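import Fermat.Agent.CFT.Global.GN.Defs
import Fermat.Agent.CFT.Global.GN.Hensel
import Fermat.Agent.CFT.Global.GN.EfSum
import Fermat.Agent.CFT.Global.LocalIndex

set_option autoImplicit false

/-!
# GN2 : `(K_v^× : K_v^{×p}) ≤ p ^ (2 + e f)` in `LocPow` language, any level `N`

Suggested proof.  `G = (𝓞 K / v ^ N)ˣ` is a finite abelian group, so `#(G / G^p) = #G[p]`; for `N`
large `x ^ p = 1` in `G` forces `x ≡ ζ ^ i mod v ^ (N - e)` (`∏ (x - ζ^i) = x^p - 1`,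
`ord_v (ζ^i - ζ^j) = e/(p-1)`), so `#G[p] ≤ p * #(v^(N-e)/v^N) = p ^ (1 + e f)`.  One more factor `p`
for the valuation.  Small `N` follow from `LocPow.mono`.
-/

namespace Fermat.Agent.CFT.Global

open Fermat.Agent.S14 IsDedekindDomain NumberField

variable {p : ℕ} [Fact p.Prime] {F : Type*} [Field F] [NumberField F]

/-- **GN2a** wild index bound.  `e = ord_v p`, `absNorm v = p ^ f`. -/
theorem wild_index_le {ζ : F} (hζ : IsPrimitiveRoot ζ p) (v : Pl F) (hv : Above p v) (e f : ℕ)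
    (he : ord v (p : F) = e) (hf : Ideal.absNorm v.asIdeal = p ^ f) (N : ℕ) :
    ∃ R : Finset F, R.card ≤ p ^ (2 + e * f) ∧ (∀ r ∈ R, r ≠ 0) ∧
      ∀ x : F, x ≠ 0 → ∃ r ∈ R, LocPow p v N (x / r) := by
  obtain ⟨R, hR, hR0, hcov⟩ := index_le hζ v
  refine ⟨R, ?_, hR0, fun x hx => ?_⟩
  · rw [he, Int.toNat_natCast, hf, ← pow_mul, ← pow_add, mul_comm f e] at hR
    exact hR
  · obtain ⟨r, hr, h⟩ := hcov x hx
    exact ⟨r, hr, h N⟩

/-- **GN2b** tame places: `LocPow` at level `1` implies `LocPow` at every level (Hensel). -/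
theorem locPow_of_locPow_one (v : Pl F) (hv : ¬ Above p v) {x : F} (hx : LocPow p v 1 x) (N : ℕ) :
    LocPow p v N x :=
  Hensel.locPow_of_locPow_one v hv hx N

/-- **GN2c** wild places: `LocPow` at level `p d + 1`, `d = ord_v (ζ - 1)`, implies `LocPow` at
every level (Hensel). -/
theorem locPow_of_locPow_dz {ζ : F} (hζ : IsPrimitiveRoot ζ p) (v : Pl F) {x : F}
    (hx : LocPow p v (p * dz ζ v + 1) x) (N : ℕ) : LocPow p v N x :=
  Hensel.locPow_of_locPow_dz hζ v hx N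

/-- **GN2d** `∑_{v ∣ p} e_v f_v = [F : ℚ]`, in the form needed for the count. -/
theorem exists_ef_sum (Sp : Finset (Pl F)) (hSp : ∀ v, v ∈ Sp ↔ Above p v) :
    ∃ e f : Pl F → ℕ, (∀ v ∈ Sp, ord v (p : F) = e v ∧ Ideal.absNorm v.asIdeal = p ^ f v) ∧
      ∑ v ∈ Sp, e v * f v = Module.finrank ℚ F :=
  EfSum.exists_ef_sum Sp hSp

end Fermat.Agent.CFT.Global
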