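import Fermat.Agent.CFT.Global.GN.FirstIneq
import Fermat.Agent.CFT.Global.GN.LocalIndex
import Fermat.Agent.CFT.Global.GN.Count
import Fermat.Agent.CFT.Global.GN.Chevalley

set_option autoImplicit false

/-!
# GN3, GN4 : auxiliary primes, Chevalley's lemma, the count: the second inequality (idele-free)

Milne CFT VII.6 / Neukirch VI.4 / S14/Count, for ANY number field `K ∋ ζ_p` (`p` odd).
`S` contains the places above `p`, generates the class group, `y` is an `S`-unit, not a `p`-th power.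
`D = rank + 1 + #S = dim U_S / p`.  `T` = `D - 1` auxiliary places, at which `y` is a local `p`-th
power, and such that `U_S → ∏_{v ∈ T} U_v / U_v^p` is onto.
-/

namespace Fermat.Agent.CFT.Global

open Fermat.Agent.S14 IsDedekindDomain NumberField

variable {p : ℕ} [Fact p.Prime] {K : Type*} [Field K] [NumberField K]

/-- The `S`-units surject onto `∏_{v ∈ T} (units at v) / (local p-th powers)`. -/
def SurjOnT (p : ℕ) (S T : Finset (Pl K)) : Prop :=
  ∀ c : Pl K → K, (∀ v ∈ T, c v ≠ 0 ∧ ord v (c v) = 0) →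
    ∃ u : K, IsSUnit S u ∧ ∀ v ∈ T, LocPow p v 1 (u * c v)

/-- **GN3** choice of the auxiliary set `T` (from `S14.exists_sunit_indep`, `sunit_indep_card_le`,
`exists_place_sep`). -/
theorem exists_aux (hp : p ≠ 2) {ζ : K} (hζ : IsPrimitiveRoot ζ p) (S : Finset (Pl K))
    (hSp : ∀ v, Above p v → v ∈ S) (y : K) (hy : IsSUnit S y) (hyp : ¬ IsPPow p y) :
    ∃ T : Finset (Pl K), Disjoint S T ∧ T.card + 1 = Units.rank K + 1 + S.card ∧
      (∀ v ∈ T, LocPow p v 1 y) ∧ SurjOnT p S T := by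
  obtain ⟨T, h1, -, -, h2, h3, h4⟩ := exists_aux_avoid hζ S y hy hyp ∅
  exact ⟨T, h1, h2, h3, h4⟩

open Classical in
/-- **GN4a** Chevalley's lemma: an `S ∪ T`-unit which is a local `p`-th power at all places of `S`
is a `p`-th power.  (Uses `first_ineq` for `K(a^{1/p})`, `S14` KR1, KR2, KR3 at the tame places.) -/
theorem chevalley (hp : p ≠ 2) {ζ : K} (hζ : IsPrimitiveRoot ζ p) (S T : Finset (Pl K))
    (hSp : ∀ v, Above p v → v ∈ S) (hgen : GenCl S) (hST : Disjoint S T) (hsurj : SurjOnT p S T)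
    (a : K) (ha : IsSUnit (S ∪ T) a) (haS : ∀ v ∈ S, LocPow p v (p * dz ζ v + 1) a) :
    IsPPow p a :=
  chevalley_aux hp hζ S T hSp hgen hST hsurj a ha.1
    (fun v h1 h2 => ha.2 v (by rw [Finset.mem_union, not_or]; exact ⟨h1, h2⟩)) haS

open Classical in
/-- **GN4b** the count: `K^× = ⟨a₀⟩ · U_{S ∪ T} · {local p-th powers at S}`. -/
theorem second_ineq_core (hp : p ≠ 2) {ζ : K} (hζ : IsPrimitiveRoot ζ p) (S T : Finset (Pl K))
    (hSp : ∀ v, Above p v → v ∈ S) (hgen : GenCl S) (hST : Disjoint S T)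
    (hcard : T.card + 1 = Units.rank K + 1 + S.card) (hsurj : SurjOnT p S T) (N : ℕ) :
    ∃ a₀ : K, a₀ ≠ 0 ∧ ∀ a : K, a ≠ 0 → ∃ (t : ℕ) (u : K), IsSUnit (S ∪ T) u ∧
      ∀ v ∈ S, LocPow p v N (u * a * a₀ ^ t) :=
  second_ineq_core_of_chevalley hp hζ S T hSp hST hcard
    (fun a ha haS => chevalley hp hζ S T hSp hgen hST hsurj a ha haS) N

/-! **GN4c** `second_ineq` (final form) is PROVED in `GN/SecondIneqFinal.lean` (import that file). -/

end Fermat.Agent.CFT.Global
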