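import Fermat.Agent.CFT.Global.GN.SecondIneq

set_option autoImplicit false

/-!
# GN4c : the second inequality for `M = K(y^{1/p})`, final form (proof from `second_ineq_core`)

`S ⊇ S₀` generates the class group, `T` from `exists_aux`.  `H = {x : ∃ u ∈ U_{S ∪ T}, u x` is a local
`p`-th power on `S}`; `K^×/H` is generated by `a₀`.  `V₁ = {x :` local `p`-th power on `S \ S₀}`.
`V₁ ∩ H` is contained in the target group, `V₁ / (V₁ ∩ H)` is cyclic of order `1` or `p`, and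
`K^× = V₁ · {x ≈ 1` on `S₀}` by weak approximation.
-/

namespace Fermat.Agent.CFT.Global

open Fermat.Agent.S14 IsDedekindDomain NumberField

variable {p : ℕ} [Fact p.Prime] {K : Type*} [Field K] [NumberField K]

-- `isSUnit_mul`, `isSUnit_pow` are provided by `GN/AuxSet.lean`.

omit [Fact p.Prime] in
/-- solving `t₂ + t t₁ ≡ 0 mod p` -/
lemma exists_dvd_add_mul (hp : p.Prime) {t₁ : ℕ} (h : ¬ p ∣ t₁) (t₂ : ℕ) :
    ∃ t : ℕ, p ∣ t₂ + t * t₁ := by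
  have : Fact p.Prime := ⟨hp⟩
  have h1 : (t₁ : ZMod p) ≠ 0 := by
    rwa [Ne, ZMod.natCast_eq_zero_iff]
  refine ⟨((-(t₂ : ZMod p)) * (t₁ : ZMod p)⁻¹).val, ?_⟩
  rw [← ZMod.natCast_eq_zero_iff]
  push_cast
  rw [ZMod.natCast_zmod_val, mul_assoc, inv_mul_cancel₀ h1]
  ring

variable {M : Type*} [Field M] [NumberField M] [Algebra K M] {ζ y : K} {B : M} {τ : M ≃ₐ[K] M}

/-- **GN4c** the second inequality for `M = K(y^{1/p})`, final form; `S₀` is ANY finite set of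
places containing the places above `p` and the support of `y`. -/
theorem second_ineq (h : IsKummer p ζ y B τ) (hp : p ≠ 2) (S₀ : Finset (Pl K))
    (hSp : ∀ v, Above p v → v ∈ S₀) (hy : IsSUnit S₀ y) (N : ℕ) :
    ∃ a₀ : K, a₀ ≠ 0 ∧ ∀ a : K, a ≠ 0 → ∃ (t : ℕ) (u : K), u ≠ 0 ∧
      (∀ v ∈ S₀, LocPow p v N (u * a * a₀ ^ t)) ∧
      (∀ v, v ∉ S₀ → NonSplit M v → (p : ℤ) ∣ ord v u) := by
  classical
  have hpp : p.Prime := Fact.out
  obtain ⟨S, hS₀S, -, hgen, -⟩ := exists_genCl (F := K) S₀ ∅ (by simp)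
  have hSp' : ∀ v, Above p v → v ∈ S := fun v hv => hS₀S (hSp v hv)
  have hyS : IsSUnit S y := ⟨hy.1, fun v hv => hy.2 v (fun h => hv (hS₀S h))⟩
  obtain ⟨T, hST, hcard, hTy, hsurj⟩ := exists_aux hp h.prim S hSp' y hyS h.not_isPPow
  obtain ⟨a₀, ha₀, hcore⟩ := second_ineq_core hp h.prim S T hSp' hgen hST hcard hsurj (N + 1)
  have hN1 : 1 ≤ N + 1 := Nat.le_add_left 1 N
  -- Lemma A
  have lemA : ∀ x u : K, x ≠ 0 → (∀ v ∈ S, v ∉ S₀ → LocPow p v (N + 1) x) → IsSUnit (S ∪ T) u →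
      (∀ v ∈ S, LocPow p v (N + 1) (u * x)) →
      (∀ v ∈ S₀, LocPow p v (N + 1) (u * x)) ∧
        (∀ v, v ∉ S₀ → NonSplit M v → (p : ℤ) ∣ ord v u) := by
    intro x u hx hV hu hux
    refine ⟨fun v hv => hux v (hS₀S hv), fun v hv hns => ?_⟩
    by_cases hvS : v ∈ S
    · have h1 := (hux v hvS).div hN1 (hV v hvS hv)
      rw [mul_div_assoc, div_self hx, mul_one] at h1
      exact h1.dvd_ord hN1
    · by_cases hvT : v ∈ T
      · exfalso
        have hnab : ¬ Above p v := fun hab => hvS (hSp' v hab)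
        have hsp : SplitAt p ζ y v := (splitAt_iff_of_not_above h.prim hnab y).2 (hTy v hvT)
        have h1 := h.card_fiber_of_splitAt hsp
        have h2 : (fiber M v).card = 1 := hns
        rw [h1] at h2
        exact hpp.one_lt.ne' h2
      · rw [hu.2 v (by simp [hvS, hvT])]
        exact dvd_zero _
  -- weak approximation
  have approx : ∀ a : K, a ≠ 0 → ∃ a' : K, a' ≠ 0 ∧ (∀ v ∈ S, v ∉ S₀ → LocPow p v (N + 1) a') ∧
      ∀ v ∈ S₀, LocPow p v (N + 1) (a / a') := by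
    intro a ha
    obtain ⟨a', ha', happ⟩ := exists_approx S (fun v => if v ∈ S₀ then a else 1)
      (fun v _ => by split_ifs <;> simp [ha]) (N + 1)
    refine ⟨a', ha', fun v hv hv0 => ?_, fun v hv => ?_⟩
    · have h1 := happ v hv
      simp only [if_neg hv0] at h1
      exact (locPow_one v (N + 1)).of_close one_ne_zero h1
    · have h1 := happ v (hS₀S hv)
      simp only [if_pos hv] at h1
      have h2 := valuation_inv_sub_one_le v hN1 h1
      rw [inv_div] at h2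
      refine (locPow_one v (N + 1)).of_close one_ne_zero ?_
      rwa [div_one]
  -- conclusion from an element of `V₁ ∩ H`
  have concl : ∀ (a a' a₁ u : K) (t : ℕ), a ≠ 0 → a' ≠ 0 → a₁ ≠ 0 →
      (∀ v ∈ S, v ∉ S₀ → LocPow p v (N + 1) a') → (∀ v ∈ S, v ∉ S₀ → LocPow p v (N + 1) a₁) →
      (∀ v ∈ S₀, LocPow p v (N + 1) (a / a')) → IsSUnit (S ∪ T) u →
      (∀ v ∈ S, LocPow p v (N + 1) (u * (a' * a₁ ^ t))) →
      u ≠ 0 ∧ (∀ v ∈ S₀, LocPow p v N (u * a * a₁ ^ t)) ∧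
      (∀ v, v ∉ S₀ → NonSplit M v → (p : ℤ) ∣ ord v u) := by
    intro a a' a₁ u t ha ha' ha₁ hV' hV₁ hclose hu hux
    obtain ⟨h1, h2⟩ := lemA (a' * a₁ ^ t) u (mul_ne_zero ha' (pow_ne_zero _ ha₁))
      (fun v hv hv0 => (hV' v hv hv0).mul ((hV₁ v hv hv0).pow t)) hu hux
    refine ⟨hu.1, fun v hv => ?_, h2⟩
    have h3 := ((h1 v hv).mul (hclose v hv)).mono (Nat.le_succ N)
    have h4 : u * (a' * a₁ ^ t) * (a / a') = u * a * a₁ ^ t := by
      field_simp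
    rwa [h4] at h3
  by_cases hV : ∀ x : K, x ≠ 0 → (∀ v ∈ S, v ∉ S₀ → LocPow p v (N + 1) x) →
      ∃ u, IsSUnit (S ∪ T) u ∧ ∀ v ∈ S, LocPow p v (N + 1) (u * x)
  · refine ⟨1, one_ne_zero, fun a ha => ?_⟩
    obtain ⟨a', ha', hV', hclose⟩ := approx a ha
    obtain ⟨u, hu, hux⟩ := hV a' ha' hV'
    exact ⟨0, u, concl a a' 1 u 0 ha ha' one_ne_zero hV' (fun v _ _ => locPow_one v _) hclose hu
      (by simpa using hux)⟩
  · push Not at hV
    obtain ⟨a₁, ha₁, hV₁, hnH⟩ := hV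
    refine ⟨a₁, ha₁, fun a ha => ?_⟩
    obtain ⟨a', ha', hV', hclose⟩ := approx a ha
    obtain ⟨t₁, u₁, hu₁, h₁⟩ := hcore a₁ ha₁
    obtain ⟨t₂, u₂, hu₂, h₂⟩ := hcore a' ha'
    have hpt₁ : ¬ p ∣ t₁ := by
      rintro ⟨m, rfl⟩
      obtain ⟨v, hvS, hv⟩ := hnH u₁ hu₁
      apply hv
      have h3 := (h₁ v hvS).div hN1 (locPow_ppow (p := p) v (N + 1) (pow_ne_zero m ha₀))
      have h4 : u₁ * a₁ * a₀ ^ (p * m) / (a₀ ^ m) ^ p = u₁ * a₁ := by
        rw [← pow_mul, mul_comm m p]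
        field_simp
      rwa [h4] at h3
    obtain ⟨t, m, hm⟩ := exists_dvd_add_mul hpp hpt₁ t₂
    refine ⟨t, u₂ * u₁ ^ t, concl a a' a₁ _ t ha ha' ha₁ hV' hV₁ hclose (isSUnit_mul hu₂ (isSUnit_pow hu₁ t)) ?_⟩
    intro v hv
    have h3 := ((h₂ v hv).mul ((h₁ v hv).pow t)).div hN1
      (locPow_ppow (p := p) v (N + 1) (pow_ne_zero m ha₀))
    have h4 : u₂ * a' * a₀ ^ t₂ * (u₁ * a₁ * a₀ ^ t₁) ^ t / (a₀ ^ m) ^ p
        = u₂ * u₁ ^ t * (a' * a₁ ^ t) := by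
      have h5 : (a₀ ^ m) ^ p = a₀ ^ t₂ * (a₀ ^ t₁) ^ t := by
        rw [← pow_mul, ← pow_mul, ← pow_add, mul_comm m p, ← hm, mul_comm t₁ t]
      rw [h5, mul_pow, mul_pow]
      field_simp
    rwa [h4] at h3

end Fermat.Agent.CFT.Global
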