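import Fermat.Agent.S14.Lambda

/-!
# GN2a : `(K_v^× : K_v^{×p}) ≤ p ^ (2 + e f)` in `LocPow` language (proof)

`G = (𝓞 / v ^ M)ˣ` is finite abelian, so `#(G / G^p) = #G[p]`; if `a ^ p ≡ 1 mod v ^ (n + e)` then
`a ≡ η mod v ^ n` for a genuine `p`-th root of unity `η` (`exists_root_close`, valid for all `n`).
-/

set_option autoImplicit false
set_option linter.style.haveILetI false
open Polynomial

namespace Fermat.Agent.CFT.Global.Wild

/-- a `p`-th root of `1` modulo a high power is close to a genuine root of unity. -/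
theorem exists_root_close {R Γ : Type*} [CommRing R] [IsDomain R]
    [LinearOrderedCommGroupWithZero Γ]
    (w : Valuation R Γ) {p : ℕ} (hp : 0 < p) {ζ : R} (hζ : IsPrimitiveRoot ζ p) (a : R) :
    ∃ η ∈ nthRootsFinset p (1 : R), w (a - η) * w (p : R) ≤ w (a ^ p - 1) := by
  classical
  set Z := nthRootsFinset p (1 : R) with hZ
  have h1Z : (1 : R) ∈ Z := (mem_nthRootsFinset hp 1).2 (one_pow p)
  obtain ⟨η0, hη0, hmin⟩ := Finset.exists_min_image Z (fun η => w (a - η)) ⟨1, h1Z⟩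
  refine ⟨η0, hη0, ?_⟩
  have hX := X_pow_sub_one_eq_prod hp hζ
  have hprod : a ^ p - 1 = ∏ η ∈ Z, (a - η) := by
    have := congrArg (eval a) hX
    simpa [eval_prod] using this
  have hder : (p : R) * η0 ^ (p - 1) = ∏ η ∈ Z.erase η0, (η0 - η) := by
    have h := congrArg (fun q => eval η0 (derivative q)) hX
    simp only [derivative_sub, derivative_X_pow, derivative_one, sub_zero,
      derivative_prod_finset, derivative_X, derivative_C, mul_one, eval_mul, eval_pow, eval_X,
      eval_finsetSum, eval_prod, eval_sub, eval_C] at h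
    rw [Finset.sum_eq_single_of_mem η0 hη0] at h
    · simpa using h
    · intro b hb hne
      apply Finset.prod_eq_zero (i := η0) (Finset.mem_erase.2 ⟨hne.symm, hη0⟩)
      simp
  have hη1 : w η0 = 1 := by
    have h1 : η0 ^ p = 1 := (mem_nthRootsFinset hp 1).1 hη0
    have h2 : w η0 ^ p = 1 := by rw [← map_pow, h1, map_one]
    exact (pow_eq_one_iff_of_nonneg zero_le hp.ne').1 h2
  have hwp : w (p : R) = ∏ η ∈ Z.erase η0, w (η0 - η) := by
    rw [← map_prod, ← hder, map_mul, map_pow, hη1, one_pow, mul_one]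
  have hle : ∏ η ∈ Z.erase η0, w (η0 - η) ≤ ∏ η ∈ Z.erase η0, w (a - η) := by
    apply Finset.prod_le_prod'
    intro η hη
    have h1 : η0 - η = (a - η) - (a - η0) := by ring
    rw [h1]
    exact (Valuation.map_sub _ _ _).trans (max_le le_rfl (hmin η (Finset.mem_of_mem_erase hη)))
  rw [hprod, map_prod, ← Finset.mul_prod_erase Z _ hη0, hwp]
  exact mul_le_mul_right hle _

/-- in a finite commutative group, `#(G / G^n) = #G[n]`. -/
theorem index_range_pow_eq_card_ker {G : Type*} [CommGroup G] [Finite G] (n : ℕ) :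
    (powMonoidHom n : G →* G).range.index = Nat.card (powMonoidHom n : G →* G).ker := by
  set φ : G →* G := powMonoidHom n
  have h1 : φ.range.index * Nat.card φ.range = Nat.card G := φ.range.index_mul_card
  have h2 : φ.ker.index * Nat.card φ.ker = Nat.card G := φ.ker.index_mul_card
  rw [Subgroup.index_ker] at h2
  have h3 : 0 < Nat.card φ.range := Nat.card_pos
  have h4 : φ.range.index * Nat.card φ.range = Nat.card φ.ker * Nat.card φ.range := by
    rw [h1, ← h2, mul_comm]
  exact Nat.eq_of_mul_eq_mul_right h3 h4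

/-- size of the kernel of `O / I → O / J`. -/
theorem card_ker_factor {O : Type*} [CommRing O] {I J : Ideal O} (h : I ≤ J) :
    Nat.card (RingHom.ker (Ideal.Quotient.factor h)) * Nat.card (O ⧸ J) = Nat.card (O ⧸ I) := by
  set f : (O ⧸ I) →+ (O ⧸ J) := (Ideal.Quotient.factor h).toAddMonoidHom with hf
  have hsurj : Function.Surjective f := Ideal.Quotient.factor_surjective h
  have h1 := AddSubgroup.card_eq_card_quotient_mul_card_addSubgroup f.ker
  have h2 : Nat.card ((O ⧸ I) ⧸ f.ker) = Nat.card (O ⧸ J) :=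
    Nat.card_congr (QuotientAddGroup.quotientKerEquivOfSurjective f hsurj).toEquiv
  rw [h2] at h1
  rw [h1, mul_comm]
  rfl


open Fermat.Agent.S14 IsDedekindDomain NumberField

variable {F : Type*} [Field F] [NumberField F]

theorem card_quot_pow (v : Pl F) (n : ℕ) :
    Nat.card (𝓞 F ⧸ v.asIdeal ^ n) = Ideal.absNorm v.asIdeal ^ n := by
  rw [← map_pow, Ideal.absNorm_apply, Submodule.cardQuot_apply]

theorem finite_quot_pow (v : Pl F) (n : ℕ) : Finite (𝓞 F ⧸ v.asIdeal ^ n) :=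
  Ideal.finiteQuotientOfFreeOfNeBot _ (pow_ne_zero n v.ne_bot)

theorem absNorm_pos (v : Pl F) : 0 < Ideal.absNorm v.asIdeal := by
  rw [Nat.pos_iff_ne_zero, Ne, Ideal.absNorm_eq_zero_iff]
  exact v.ne_bot

theorem card_ker_factor_pow (v : Pl F) (n e : ℕ) :
    Nat.card (RingHom.ker (Ideal.Quotient.factor
      (Ideal.pow_le_pow_right (I := v.asIdeal) (Nat.le_add_right n e)))) =
      Ideal.absNorm v.asIdeal ^ e := by
  have h := card_ker_factor (Ideal.pow_le_pow_right (I := v.asIdeal) (Nat.le_add_right n e))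
  rw [card_quot_pow, card_quot_pow] at h
  have h' : Ideal.absNorm v.asIdeal ^ (n + e) =
      Ideal.absNorm v.asIdeal ^ e * Ideal.absNorm v.asIdeal ^ n := by
    rw [pow_add, mul_comm]
  exact Nat.eq_of_mul_eq_mul_right (pow_pos (absNorm_pos v) n) (h.trans h')

/-- the `p`-torsion of `(𝓞 / v ^ (n + e))ˣ` has at most `p * N(v) ^ e` elements. -/
theorem card_torsion_le {p : ℕ} (hp : 0 < p) {ζ : 𝓞 F} (hζ : IsPrimitiveRoot ζ p) (v : Pl F)
    (e : ℕ) (he : v.intValuation (p : 𝓞 F) = WithZero.exp (-(e : ℤ))) (n : ℕ) :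
    Nat.card (powMonoidHom p : (𝓞 F ⧸ v.asIdeal ^ (n + e))ˣ →* _).ker ≤
      p * Ideal.absNorm v.asIdeal ^ e := by
  classical
  set I := v.asIdeal ^ (n + e) with hI
  set J := v.asIdeal ^ n with hJ
  have hIJ : I ≤ J := Ideal.pow_le_pow_right (Nat.le_add_right n e)
  have : Finite (𝓞 F ⧸ I) := finite_quot_pow v _
  set Z := nthRootsFinset p (1 : 𝓞 F) with hZ
  have key : ∀ g : (powMonoidHom p : (𝓞 F ⧸ I)ˣ →* _).ker, ∃ η : Z,
      ((g : (𝓞 F ⧸ I)ˣ) : 𝓞 F ⧸ I) - Ideal.Quotient.mk I η ∈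
        RingHom.ker (Ideal.Quotient.factor hIJ) := by
    rintro ⟨g, hg⟩
    obtain ⟨a, ha⟩ := Ideal.Quotient.mk_surjective (g : 𝓞 F ⧸ I)
    have hg1 : g ^ p = 1 := hg
    have h1 : a ^ p - 1 ∈ I := by
      rw [← Ideal.Quotient.eq_zero_iff_mem, map_sub, map_pow, map_one, ha, ← Units.val_pow_eq_pow_val,
        hg1, Units.val_one, sub_self]
    rw [hI, ← HeightOneSpectrum.intValuation_le_pow_iff_mem] at h1
    obtain ⟨η, hη, hle⟩ := exists_root_close v.intValuation hp hζ a
    refine ⟨⟨η, hη⟩, ?_⟩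
    rw [RingHom.mem_ker, ← ha, ← map_sub, Ideal.Quotient.factor_mk, Ideal.Quotient.eq_zero_iff_mem,
      hJ, ← HeightOneSpectrum.intValuation_le_pow_iff_mem]
    have h2 := hle.trans h1
    rw [he] at h2
    have h3 : WithZero.exp (-((n + e : ℕ) : ℤ)) =
        WithZero.exp (-(n : ℤ)) * WithZero.exp (-(e : ℤ)) := by
      rw [← WithZero.exp_add]; congr 1; push_cast; ring
    rw [h3] at h2
    exact le_of_mul_le_mul_right h2 (zero_lt_iff.2 WithZero.exp_ne_zero)
  choose η hη using key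
  let f : (powMonoidHom p : (𝓞 F ⧸ I)ˣ →* _).ker → Z × RingHom.ker (Ideal.Quotient.factor hIJ) :=
    fun g => (η g, ⟨_, hη g⟩)
  have hf : Function.Injective f := by
    intro g g' h
    have h1 : η g = η g' := congrArg Prod.fst h
    have h2 := congrArg (fun x => (x.2 : 𝓞 F ⧸ I)) h
    simp only [f] at h2
    rw [h1] at h2
    exact Subtype.ext (Units.ext (sub_left_injective h2))
  have h1 := Nat.card_le_card_of_injective f hf
  have h2 : Nat.card Z = p := by
    rw [Nat.card_eq_fintype_card, Fintype.card_coe, hζ.card_nthRootsFinset]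
  rw [Nat.card_prod, card_ker_factor_pow, h2] at h1
  exact h1


theorem isUnit_mk_pow (v : Pl F) (M : ℕ) {a : 𝓞 F} (ha : a ∉ v.asIdeal) :
    IsUnit (Ideal.Quotient.mk (v.asIdeal ^ M) a) := by
  obtain ⟨y, i, hi, hyi⟩ := v.isMaximal.exists_inv ha
  have h1 : y * a = 1 - i := by rw [← hyi]; ring
  have h2 : a * (y * ∑ k ∈ Finset.range M, i ^ k) = 1 - i ^ M := by
    rw [← geom_sum_mul_neg, ← h1]; ring
  apply IsUnit.of_mul_eq_one (Ideal.Quotient.mk _ (y * ∑ k ∈ Finset.range M, i ^ k))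
  rw [← map_mul, h2, map_sub, map_one, Ideal.Quotient.eq_zero_iff_mem.2 (Ideal.pow_mem_pow hi M),
    sub_zero]

theorem notMem_of_isUnit_mk_pow (v : Pl F) {M : ℕ} (hM : 1 ≤ M) {a : 𝓞 F}
    (ha : IsUnit (Ideal.Quotient.mk (v.asIdeal ^ M) a)) : a ∉ v.asIdeal := by
  intro hmem
  have hle : v.asIdeal ^ M ≤ v.asIdeal := Ideal.pow_le_self (by omega)
  have h1 := ha.map (Ideal.Quotient.factor hle)
  rw [Ideal.Quotient.factor_mk, Ideal.Quotient.eq_zero_iff_mem.2 hmem] at h1
  haveI : Nontrivial (𝓞 F ⧸ v.asIdeal) := Ideal.Quotient.nontrivial_iff.2 v.isPrime.ne_top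
  exact not_isUnit_zero h1

theorem valuation_eq_one_of_notMem (v : Pl F) {a : 𝓞 F} (ha : a ∉ v.asIdeal) :
    v.valuation F (a : F) = 1 := by
  have h1 : v.valuation F (a : F) ≤ 1 := v.valuation_le_one a
  have h2 : ¬ v.valuation F (a : F) < 1 := fun h => ha ((v.valuation_lt_one_iff_mem a).1 h)
  exact le_antisymm h1 (not_lt.1 h2)

variable {p : ℕ} [Fact p.Prime]

/-- **GN2a** wild index bound.  `e = ord_v p`, `absNorm v = p ^ f`. -/
theorem wild_index_le {ζ : F} (hζ : IsPrimitiveRoot ζ p) (v : Pl F) (e f : ℕ)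
    (he : ord v (p : F) = e) (hf : Ideal.absNorm v.asIdeal = p ^ f) (N : ℕ) :
    ∃ R : Finset F, R.card ≤ p ^ (2 + e * f) ∧ (∀ r ∈ R, r ≠ 0) ∧
      ∀ x : F, x ≠ 0 → ∃ r ∈ R, LocPow p v N (x / r) := by
  classical
  have hp : p.Prime := Fact.out
  haveI : NeZero p := ⟨hp.ne_zero⟩
  have hpF : (p : F) ≠ 0 := Nat.cast_ne_zero.2 hp.ne_zero
  have heO : v.intValuation (p : 𝓞 F) = WithZero.exp (-(e : ℤ)) := by
    have h1 : (((p : 𝓞 F) : 𝓞 F) : F) = (p : F) := by push_cast; rfl
    rw [← HeightOneSpectrum.valuation_of_algebraMap (K := F)]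
    show v.valuation F (((p : 𝓞 F) : 𝓞 F) : F) = _
    rw [h1, valuation_eq_exp_neg_ord v hpF, he]
  set M := N + 1 + e with hM
  have hM1 : 1 ≤ M := by omega
  set I := v.asIdeal ^ M with hI
  haveI : Finite (𝓞 F ⧸ I) := finite_quot_pow v _
  set φ : (𝓞 F ⧸ I)ˣ →* (𝓞 F ⧸ I)ˣ := powMonoidHom p with hφ
  have hidx : φ.range.index ≤ p * Ideal.absNorm v.asIdeal ^ e := by
    rw [hφ, index_range_pow_eq_card_ker]
    exact card_torsion_le hp.pos hζ.toInteger_isPrimitiveRoot v e heO (N + 1)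
  have hlift : ∀ g : (𝓞 F ⧸ I)ˣ, ∃ a : 𝓞 F, Ideal.Quotient.mk I a = g := fun g =>
    Ideal.Quotient.mk_surjective _
  choose lift hlift using hlift
  have hliftv : ∀ g, lift g ∉ v.asIdeal := fun g =>
    notMem_of_isUnit_mk_pow v hM1 (by rw [hlift]; exact g.isUnit)
  obtain ⟨π, hπ0, hπ⟩ := exists_ord_eq ({v} : Finset (Pl F)) (fun _ => 1)
  have hπ1 : ord v π = 1 := hπ v (by simp)
  letI : Fintype ((𝓞 F ⧸ I)ˣ ⧸ φ.range) := Fintype.ofFinite _
  refine ⟨((Finset.range p) ×ˢ (Finset.univ : Finset ((𝓞 F ⧸ I)ˣ ⧸ φ.range))).image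
    (fun iτ => π ^ iτ.1 * (lift iτ.2.out : F)), ?_, ?_, ?_⟩
  · refine Finset.card_image_le.trans ?_
    rw [Finset.card_product, Finset.card_range, Finset.card_univ, ← Nat.card_eq_fintype_card]
    have h1 : Nat.card ((𝓞 F ⧸ I)ˣ ⧸ φ.range) = φ.range.index := rfl
    rw [h1]
    calc p * φ.range.index ≤ p * (p * Ideal.absNorm v.asIdeal ^ e) := Nat.mul_le_mul_left _ hidx
      _ = p ^ (2 + e * f) := by rw [hf, ← pow_mul, mul_comm f e]; ring
  · intro r hr
    obtain ⟨iτ, -, rfl⟩ := Finset.mem_image.mp hr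
    exact mul_ne_zero (pow_ne_zero _ hπ0) (Approx.coe_ne_zero_of_notMem v (hliftv _))
  · intro x hx
    set n : ℤ := ord v x with hn
    have hpz : (p : ℤ) ≠ 0 := by exact_mod_cast hp.ne_zero
    have hppos : (0 : ℤ) < p := by exact_mod_cast hp.pos
    set s : ℤ := n / p
    set i : ℤ := n % p
    have hi0 : 0 ≤ i := Int.emod_nonneg _ hpz
    have hip : i < p := Int.emod_lt_of_pos _ hppos
    have hnsi : n = p * s + i := (Int.mul_ediv_add_emod n p).symm
    set u : F := x / π ^ n with hu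
    have hu0 : u ≠ 0 := div_ne_zero hx (zpow_ne_zero _ hπ0)
    have hordu : ord v u = 0 := by
      rw [hu, ord_div v hx (zpow_ne_zero _ hπ0), ord_zpow, hπ1]; ring
    have hvu : v.valuation F u = 1 := Approx.valuation_eq_one_of_ord v hu0 hordu
    obtain ⟨a, ha⟩ := v.exists_valuation_sub_lt_of_integer (K := F) hvu.le
      (Units.mk0 (WithZero.exp (-(M : ℤ))) WithZero.exp_ne_zero)
    rw [Units.val_mk0] at ha
    have hexpM : WithZero.exp (-(M : ℤ)) ≤ (WithZero.exp (-(N : ℤ)) : WithZero (Multiplicative ℤ)) := by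
      rw [WithZero.exp_le_exp]; omega
    have hav : a ∉ v.asIdeal := by
      intro hmem
      have h1 : v.valuation F (a : F) < 1 := (v.valuation_lt_one_iff_mem a).2 hmem
      have h2 : u = (a : F) - ((a : F) - u) := by ring
      have h3 : v.valuation F u < 1 := by
        rw [h2]
        exact lt_of_le_of_lt (Valuation.map_sub _ _ _)
          (max_lt h1 (ha.trans_le (exp_neg_natCast_le_one M)))
      rw [hvu] at h3
      exact lt_irrefl _ h3
    set g : (𝓞 F ⧸ I)ˣ := (isUnit_mk_pow v M hav).unit with hg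
    have hgval : (g : 𝓞 F ⧸ I) = Ideal.Quotient.mk I a := rfl
    obtain ⟨⟨h, k, hk⟩, hh⟩ := QuotientGroup.mk_out_eq_mul φ.range g
    have hk' : k ^ p = h := hk
    simp only at hh
    set a' := lift (g : (𝓞 F ⧸ I)ˣ ⧸ φ.range).out with ha'
    set b := lift k with hb
    have hmem : a' - a * b ^ p ∈ I := by
      rw [← Ideal.Quotient.eq_zero_iff_mem, map_sub, map_mul, map_pow, ha', hlift, hb, hlift, hh,
        ← hk', ← hgval]
      simp
    have hva' : v.valuation F (a' : F) = 1 := valuation_eq_one_of_notMem v (hliftv _)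
    have hva : v.valuation F (a : F) = 1 := valuation_eq_one_of_notMem v hav
    have ha'0 : (a' : F) ≠ 0 := Approx.coe_ne_zero_of_notMem v (hliftv _)
    have ha0 : (a : F) ≠ 0 := Approx.coe_ne_zero_of_notMem v hav
    have hb0 : (b : F) ≠ 0 := Approx.coe_ne_zero_of_notMem v (hliftv _)
    refine ⟨π ^ i.toNat * (a' : F), ?_, ?_⟩
    · refine Finset.mem_image.mpr ⟨(i.toNat, (g : (𝓞 F ⧸ I)ˣ ⧸ φ.range)), ?_, rfl⟩
      simp only [Finset.mem_product, Finset.mem_range, Finset.mem_univ, and_true]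
      omega
    · refine ⟨π ^ s / (b : F), div_ne_zero (zpow_ne_zero _ hπ0) hb0, ?_⟩
      have hxe : x / (π ^ i.toNat * (a' : F)) / (π ^ s / (b : F)) ^ p =
          (u / (a : F)) * ((a : F) * (b : F) ^ p / (a' : F)) := by
        have h1 : π ^ i.toNat = π ^ i := by
          rw [← zpow_natCast, Int.toNat_of_nonneg hi0]
        have h2 : (π ^ s) ^ p = π ^ (p * s) := by
          rw [← zpow_natCast, ← zpow_mul, mul_comm]
        have h3 : π ^ n = π ^ (p * s) * π ^ i := by rw [hnsi, zpow_add₀ hπ0]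
        rw [h1, div_pow, h2, hu, h3]
        have hc1 : π ^ (p * s) ≠ 0 := zpow_ne_zero _ hπ0
        have hc2 : π ^ i ≠ 0 := zpow_ne_zero _ hπ0
        field_simp
      rw [hxe]
      apply valuation_mul_sub_one_le
      · have h1 : u / (a : F) - 1 = -(((a : F) - u) / (a : F)) := by field_simp; ring
        rw [h1, Valuation.map_neg, map_div₀, hva, div_one]
        exact ha.le.trans hexpM
      · have h1 : (a : F) * (b : F) ^ p / (a' : F) - 1 =
            -(((a' - a * b ^ p : 𝓞 F) : F) / (a' : F)) := by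
          have : ((a' - a * b ^ p : 𝓞 F) : F) = (a' : F) - (a : F) * (b : F) ^ p := by
            push_cast; ring
          rw [this]; field_simp; ring
        rw [h1, Valuation.map_neg, map_div₀, hva', div_one,
          HeightOneSpectrum.valuation_of_algebraMap]
        rw [hI, ← HeightOneSpectrum.intValuation_le_pow_iff_mem] at hmem
        exact hmem.trans hexpM

end Fermat.Agent.CFT.Global.Wild
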